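import Mathlib

/-!
# Hermite normal form of `diag(m,1) * γ` for `γ ∈ SL(2,ℤ)`

For `γ = (p q; r s) ∈ SL(2,ℤ)` and `m ≥ 1` there are `δ ∈ SL(2,ℤ)` and `0 ≤ b < d` with
`(m p, m q; r, s) = δ * (a b; 0 d)`, where `a = gcd(m, r)` and `d = m / a`.
-/

set_option autoImplicit false

namespace Fermat.Agent.S28

open Matrix
open scoped MatrixGroups

/-- The width parameter `a = gcd(m, r)` of `diag(m,1) * γ`, `r` the lower left entry of `γ`. -/
def ig_a (m : ℕ) (γ : SL(2, ℤ)) : ℕ := Nat.gcd m (γ 1 0).natAbs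

theorem ig_a_dvd (m : ℕ) (γ : SL(2, ℤ)) : ig_a m γ ∣ m := Nat.gcd_dvd_left _ _

theorem ig_a_pos {m : ℕ} (hm : 0 < m) (γ : SL(2, ℤ)) : 0 < ig_a m γ :=
  Nat.gcd_pos_of_pos_left _ hm

/-- `a_m = gcd(m, a_N)` for `m ∣ N`. -/
theorem ig_a_eq_gcd {m N : ℕ} (hmN : m ∣ N) (γ : SL(2, ℤ)) :
    ig_a m γ = Nat.gcd m (ig_a N γ) := by
  unfold ig_a
  rw [← Nat.gcd_assoc, Nat.gcd_eq_left hmN]

theorem ig_a_eq_gcd' {m N : ℕ} (hmN : m ∣ N) (γ : SL(2, ℤ)) :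
    ig_a m γ = Nat.gcd (ig_a N γ) m := by
  rw [ig_a_eq_gcd hmN, Nat.gcd_comm]

theorem ig_det (γ : SL(2, ℤ)) : γ 0 0 * γ 1 1 - γ 0 1 * γ 1 0 = 1 := by
  have h := γ.2
  rw [Matrix.det_fin_two] at h
  exact h

theorem ig_gcd_col (m : ℕ) (γ : SL(2, ℤ)) :
    Int.gcd ((m : ℤ) * γ 0 0) (γ 1 0) = ig_a m γ := by
  have hcop : IsCoprime (γ 0 0) (γ 1 0) := ⟨γ 1 1, -γ 0 1, by linarith [ig_det γ]⟩
  have h1 : Int.gcd (γ 0 0) (γ 1 0) = 1 := Int.isCoprime_iff_gcd_eq_one.mp hcop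
  unfold ig_a
  rw [Int.gcd_eq_natAbs, Int.natAbs_mul, Int.natAbs_natCast]
  rw [Int.gcd_eq_natAbs] at h1
  exact Nat.Coprime.gcd_mul_right_cancel m h1

/-- Hermite normal form, entrywise. -/
theorem ig_hnf_entries (m : ℕ) (hm : 0 < m) (γ : SL(2, ℤ)) :
    ∃ (δ : SL(2, ℤ)) (b : ℕ), b < m / ig_a m γ ∧
      (m : ℤ) * γ 0 0 = δ 0 0 * (ig_a m γ : ℤ) ∧
      (m : ℤ) * γ 0 1 = δ 0 0 * (b : ℤ) + δ 0 1 * ((m / ig_a m γ : ℕ) : ℤ) ∧
      γ 1 0 = δ 1 0 * (ig_a m γ : ℤ) ∧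
      γ 1 1 = δ 1 0 * (b : ℤ) + δ 1 1 * ((m / ig_a m γ : ℕ) : ℤ) := by
  set a : ℕ := ig_a m γ with ha
  have hapos : 0 < a := ig_a_pos hm γ
  have hadvd : a ∣ m := ig_a_dvd m γ
  obtain ⟨d, hd⟩ := hadvd
  have hdpos : 0 < d := by
    rcases Nat.eq_zero_or_pos d with h | h
    · subst h; simp at hd; omega
    · exact h
  have hmd : m / a = d := by rw [hd]; exact Nat.mul_div_cancel_left d hapos
  rw [hmd]
  set p := γ 0 0 with hp
  set q := γ 0 1 with hq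
  set r := γ 1 0 with hr
  set s := γ 1 1 with hs
  have hdet : p * s - q * r = 1 := ig_det γ
  -- Bezout
  have hg : Int.gcd ((m : ℤ) * p) r = a := ig_gcd_col m γ
  have hbez := Int.gcd_eq_gcd_ab ((m : ℤ) * p) r
  rw [hg] at hbez
  set u := Int.gcdA ((m : ℤ) * p) r with hu
  set v := Int.gcdB ((m : ℤ) * p) r with hv
  -- a ∣ m p, a ∣ r
  have ha1 : (a : ℤ) ∣ (m : ℤ) * p := by rw [← hg]; exact Int.gcd_dvd_left _ _
  have ha2 : (a : ℤ) ∣ r := by rw [← hg]; exact Int.gcd_dvd_right _ _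
  obtain ⟨x, hx⟩ := ha1
  obtain ⟨y, hy⟩ := ha2
  have ha0 : (a : ℤ) ≠ 0 := by exact_mod_cast hapos.ne'
  have hmZ : (m : ℤ) = a * d := by exact_mod_cast hd
  -- x * u + y * v = 1
  have hxy : x * u + y * v = 1 := by
    have : (a : ℤ) * (x * u + y * v) = a * 1 := by
      rw [mul_one]
      calc (a : ℤ) * (x * u + y * v) = (a * x) * u + (a * y) * v := by ring
        _ = (m : ℤ) * p * u + r * v := by rw [← hx, ← hy]
        _ = a := hbez.symm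
    exact mul_left_cancel₀ ha0 this
  -- b₀ := u * m * q + v * s
  set b0 : ℤ := u * ((m : ℤ) * q) + v * s with hb0
  -- the relation x * s - y * (m q) = d
  have hxs : x * s - y * ((m : ℤ) * q) = d := by
    have : (a : ℤ) * (x * s - y * ((m : ℤ) * q)) = a * d := by
      calc (a : ℤ) * (x * s - y * ((m : ℤ) * q)) = (a * x) * s - (a * y) * ((m : ℤ) * q) := by ring
        _ = (m : ℤ) * p * s - r * ((m : ℤ) * q) := by rw [← hx, ← hy]
        _ = (m : ℤ) * (p * s - q * r) := by ring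
        _ = a * d := by rw [hdet, mul_one, hmZ]
    exact mul_left_cancel₀ ha0 this
  -- reduce b0 mod d
  have hdZ : (0 : ℤ) < d := by exact_mod_cast hdpos
  set k : ℤ := b0 / d with hk
  set b : ℤ := b0 % d with hb
  have hb_nonneg : 0 ≤ b := Int.emod_nonneg _ hdZ.ne'
  have hb_lt : b < d := Int.emod_lt_of_pos _ hdZ
  have hb0_eq : b0 = b + d * k := by rw [hb, hk]; exact (Int.emod_add_mul_ediv b0 d).symm
  -- δ := (x, x k - v; y, y k + u)
  have hδdet : x * (y * k + u) - (x * k - v) * y = 1 := by linarith [hxy]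
  refine ⟨⟨!![x, x * k - v; y, y * k + u], by rw [Matrix.det_fin_two_of]; linarith [hδdet]⟩,
    b.toNat, ?_, ?_, ?_, ?_, ?_⟩
  · have : (b.toNat : ℤ) < d := by rw [Int.toNat_of_nonneg hb_nonneg]; exact hb_lt
    exact_mod_cast this
  · show (m : ℤ) * p = x * (a : ℤ)
    rw [hx]; ring
  · show (m : ℤ) * q = x * ((b.toNat : ℕ) : ℤ) + (x * k - v) * (d : ℤ)
    rw [Int.toNat_of_nonneg hb_nonneg]
    have hb' : b = b0 - d * k := by linarith
    rw [hb', hb0]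
    -- m q = x (u m q + v s - d k) + (x k - v) d = x u m q + x v s - v d
    -- use d = x s - y m q
    have : (m : ℤ) * q = (x * u + y * v) * ((m : ℤ) * q) := by rw [hxy, one_mul]
    rw [← hxs]
    linear_combination this
  · show r = y * (a : ℤ)
    rw [hy]; ring
  · show s = y * ((b.toNat : ℕ) : ℤ) + (y * k + u) * (d : ℤ)
    rw [Int.toNat_of_nonneg hb_nonneg]
    have hb' : b = b0 - d * k := by linarith
    rw [hb', hb0]
    have : s = (x * u + y * v) * s := by rw [hxy, one_mul]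
    rw [← hxs]
    linear_combination this

/-- Hermite normal form, as a matrix identity. -/
theorem ig_hnf (m : ℕ) (hm : 0 < m) (γ : SL(2, ℤ)) :
    ∃ (δ : SL(2, ℤ)) (b : ℕ), b < m / ig_a m γ ∧
      !![(m : ℤ) * γ 0 0, (m : ℤ) * γ 0 1; γ 1 0, γ 1 1] =
        (δ : Matrix (Fin 2) (Fin 2) ℤ) * !![(ig_a m γ : ℤ), (b : ℤ); 0, ((m / ig_a m γ : ℕ) : ℤ)] := by
  obtain ⟨δ, b, hb, h1, h2, h3, h4⟩ := ig_hnf_entries m hm γ
  refine ⟨δ, b, hb, ?_⟩
  rw [Matrix.eta_fin_two (δ : Matrix (Fin 2) (Fin 2) ℤ), Matrix.mul_fin_two]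
  simp only [mul_zero, add_zero]
  rw [← h1, ← h2, ← h3, ← h4]

end Fermat.Agent.S28
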