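import Mathlib

/-!
# The index set of Hermite normal forms of level `N` (S28, node W1, part 2)

`hnf_I N` is the set of triples `(a, b, d)` with `a d = N`, `0 ≤ b < d`, `gcd(a, b, d) = 1`; it
indexes the left `SL(2,ℤ)`-cosets of primitive integer matrices of determinant `N` through
`hnf_mat α = (a b; 0 d)` (`hnf_exists`, `hnf_unique`).  This file provides

* the right action `hnf_act α γ` of `SL(2,ℤ)` on indices, characterised by
  `hnf_mat α * γ = γ' * hnf_mat (hnf_act α γ)` (`hnf_act_spec`, `hnf_act_eq_of`), its laws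
  (`hnf_act_one`, `hnf_act_mul`), the permutation `hnf_perm`, the explicit action of `T ^ n`
  (`hnf_act_T_zpow`);
* the distinguished index `hnf_inf N = (N, 0, 1)`, the only one with `N ∣ a` (`hnf_a_eq_iff`,
  `hnf_dvd_a_iff`, `hnf_filter_card_one`), and `hnf_act_inf_a : (∞ · γ).a = gcd(m, γ 1 0)`;
* for `m ∣ N` the level lowering `hnf_proj m : hnf_I N → hnf_I m`, characterised by
  `hnf_mat α = μ * hnf_mat (hnf_proj m α)` with `μ` integral (`hnf_proj_spec`, `hnf_proj_eq_of`),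
  the KEY FACT `hnf_proj_a : (hnf_proj m α).a = gcd(α.a, m)`, equivariance `hnf_proj_act`,
  `hnf_proj_inf`, `hnf_proj_proj`;
* the Galois twist `hnf_twist k : (a, b, d) ↦ (a, k b mod d, d)` for `k` prime to `N`, a
  bijection commuting with the projections (`hnf_proj_twist`).
-/

set_option autoImplicit false

namespace Fermat.Agent.S28

open Matrix
open scoped MatrixGroups

/-- Index set of Hermite normal forms of level `N`: triples `(a, b, d)` with `a d = N`,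
`0 ≤ b < d`, `gcd(a, b, d) = 1`. -/
@[ext]
structure hnf_I (N : ℕ) where
  a : ℕ
  b : ℕ
  d : ℕ
  had : a * d = N
  hbd : b < d
  hgcd : Nat.gcd a (Nat.gcd b d) = 1

namespace hnf_I

variable {N : ℕ}

theorem d_pos (α : hnf_I N) : 0 < α.d := lt_of_le_of_lt (Nat.zero_le _) α.hbd

theorem a_dvd (α : hnf_I N) : α.a ∣ N := ⟨α.d, α.had.symm⟩

theorem d_dvd (α : hnf_I N) : α.d ∣ N := ⟨α.a, by rw [mul_comm]; exact α.had.symm⟩

theorem a_pos (α : hnf_I N) (hN : N ≠ 0) : 0 < α.a := by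
  rcases Nat.eq_zero_or_pos α.a with h | h
  · exfalso; apply hN; rw [← α.had, h, zero_mul]
  · exact h

end hnf_I

instance hnf_decEq (N : ℕ) : DecidableEq (hnf_I N) := fun α β =>
  decidable_of_iff (α.a = β.a ∧ α.b = β.b ∧ α.d = β.d)
    ⟨fun h => hnf_I.ext h.1 h.2.1 h.2.2, fun h => by subst h; exact ⟨rfl, rfl, rfl⟩⟩

/-- The encoding of an index as a triple of bounded naturals. -/
def hnf_code {N : ℕ} (α : hnf_I N) : ℕ × ℕ × ℕ := (α.a, α.b, α.d)

theorem hnf_code_injective {N : ℕ} : Function.Injective (hnf_code (N := N)) := by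
  intro α β h
  simp only [hnf_code, Prod.mk.injEq] at h
  exact hnf_I.ext h.1 h.2.1 h.2.2

noncomputable instance hnf_fintype (N : ℕ) [NeZero N] : Fintype (hnf_I N) := by
  classical
  have hfin : Finite (hnf_I N) := by
    have hsub : Set.range (hnf_code (N := N)) ⊆
        ((Finset.range (N + 1)) ×ˢ (Finset.range (N + 1)) ×ˢ (Finset.range (N + 1)) :
          Finset (ℕ × ℕ × ℕ)) := by
      rintro _ ⟨α, rfl⟩
      have hN : 0 < N := Nat.pos_of_ne_zero (NeZero.ne N)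
      have h1 : α.a ≤ N := Nat.le_of_dvd hN α.a_dvd
      have h2 : α.d ≤ N := Nat.le_of_dvd hN α.d_dvd
      have h3 : α.b < α.d := α.hbd
      simp only [hnf_code, Finset.coe_product, Set.mem_prod, Finset.mem_coe, Finset.mem_range]
      omega
    have : Finite (Set.range (hnf_code (N := N))) := Set.Finite.subset (Finset.finite_toSet _) hsub
    exact Finite.of_injective (fun α => (⟨hnf_code α, α, rfl⟩ : Set.range (hnf_code (N := N))))
      (fun α β h => hnf_code_injective (by simpa using congrArg Subtype.val h))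
  exact Fintype.ofFinite _

/-- The integer matrix `(a b; 0 d)` of an index. -/
def hnf_mat {N : ℕ} (α : hnf_I N) : Matrix (Fin 2) (Fin 2) ℤ :=
  !![(α.a : ℤ), (α.b : ℤ); 0, (α.d : ℤ)]

@[simp] theorem hnf_mat_00 {N : ℕ} (α : hnf_I N) : hnf_mat α 0 0 = α.a := rfl
@[simp] theorem hnf_mat_01 {N : ℕ} (α : hnf_I N) : hnf_mat α 0 1 = α.b := rfl
@[simp] theorem hnf_mat_10 {N : ℕ} (α : hnf_I N) : hnf_mat α 1 0 = 0 := rfl
@[simp] theorem hnf_mat_11 {N : ℕ} (α : hnf_I N) : hnf_mat α 1 1 = α.d := rfl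

theorem hnf_mat_det {N : ℕ} (α : hnf_I N) : (hnf_mat α).det = N := by
  rw [Matrix.det_fin_two]
  simp only [hnf_mat_00, hnf_mat_01, hnf_mat_10, hnf_mat_11, mul_zero, sub_zero]
  exact_mod_cast α.had

theorem hnf_mat_injective {N : ℕ} : Function.Injective (hnf_mat (N := N)) := by
  intro α β h
  have h00 := congrFun (congrFun h 0) 0
  have h01 := congrFun (congrFun h 0) 1
  have h11 := congrFun (congrFun h 1) 1
  simp only [hnf_mat_00, hnf_mat_01, hnf_mat_11] at h00 h01 h11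
  exact hnf_I.ext (by exact_mod_cast h00) (by exact_mod_cast h01) (by exact_mod_cast h11)

/-- Primitivity of an integer `2 × 2` matrix: no non-unit divides all the entries. -/
def hnf_Prim (M : Matrix (Fin 2) (Fin 2) ℤ) : Prop :=
  ∀ n : ℤ, (∀ i j, n ∣ M i j) → IsUnit n

theorem hnf_dvd_mul_right {n : ℤ} {M : Matrix (Fin 2) (Fin 2) ℤ} (h : ∀ i j, n ∣ M i j)
    (A : Matrix (Fin 2) (Fin 2) ℤ) : ∀ i j, n ∣ (M * A) i j := by
  intro i j
  rw [Matrix.mul_apply]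
  exact Finset.dvd_sum fun k _ => Dvd.dvd.mul_right (h i k) _

theorem hnf_dvd_mul_left {n : ℤ} {M : Matrix (Fin 2) (Fin 2) ℤ} (h : ∀ i j, n ∣ M i j)
    (A : Matrix (Fin 2) (Fin 2) ℤ) : ∀ i j, n ∣ (A * M) i j := by
  intro i j
  rw [Matrix.mul_apply]
  exact Finset.dvd_sum fun k _ => Dvd.dvd.mul_left (h k j) _

theorem hnf_Prim_mul_right {M : Matrix (Fin 2) (Fin 2) ℤ} (hM : hnf_Prim M) (γ : SL(2, ℤ)) :
    hnf_Prim (M * (γ : Matrix (Fin 2) (Fin 2) ℤ)) := by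
  intro n hn
  apply hM n
  have h := hnf_dvd_mul_right hn ((γ⁻¹ : SL(2, ℤ)) : Matrix (Fin 2) (Fin 2) ℤ)
  have e : M * (γ : Matrix (Fin 2) (Fin 2) ℤ) * ((γ⁻¹ : SL(2, ℤ)) : Matrix (Fin 2) (Fin 2) ℤ)
      = M := by
    rw [Matrix.mul_assoc, ← Matrix.SpecialLinearGroup.coe_mul, mul_inv_cancel,
      Matrix.SpecialLinearGroup.coe_one, Matrix.mul_one]
  rwa [e] at h

theorem hnf_Prim_mul_left {M : Matrix (Fin 2) (Fin 2) ℤ} (hM : hnf_Prim M) (γ : SL(2, ℤ)) :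
    hnf_Prim ((γ : Matrix (Fin 2) (Fin 2) ℤ) * M) := by
  intro n hn
  apply hM n
  have h := hnf_dvd_mul_left hn ((γ⁻¹ : SL(2, ℤ)) : Matrix (Fin 2) (Fin 2) ℤ)
  have e : ((γ⁻¹ : SL(2, ℤ)) : Matrix (Fin 2) (Fin 2) ℤ) * ((γ : Matrix (Fin 2) (Fin 2) ℤ) * M)
      = M := by
    rw [← Matrix.mul_assoc, ← Matrix.SpecialLinearGroup.coe_mul, inv_mul_cancel,
      Matrix.SpecialLinearGroup.coe_one, Matrix.one_mul]
  rwa [e] at h

theorem hnf_Prim_mat {N : ℕ} (α : hnf_I N) : hnf_Prim (hnf_mat α) := by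
  intro n hn
  have h1 : n ∣ (α.a : ℤ) := hn 0 0
  have h2 : n ∣ (α.b : ℤ) := hn 0 1
  have h3 : n ∣ (α.d : ℤ) := hn 1 1
  have h1' : n.natAbs ∣ α.a := Int.natAbs_dvd_natAbs.mpr h1
  have h2' : n.natAbs ∣ α.b := Int.natAbs_dvd_natAbs.mpr h2
  have h3' : n.natAbs ∣ α.d := Int.natAbs_dvd_natAbs.mpr h3
  have : n.natAbs ∣ 1 := by
    rw [← α.hgcd]
    exact Nat.dvd_gcd h1' (Nat.dvd_gcd h2' h3')
  exact Int.isUnit_iff_natAbs_eq.mpr (Nat.dvd_one.mp this)

/-- Entrywise Hermite normal form of an integer matrix `(p q; r s)` of positive determinant: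
`(p q; r s) = δ * (g b; 0 d)` with `δ ∈ SL(2,ℤ)`, `0 ≤ b < d`, `g > 0`. -/
theorem hnf_exists_entries (p q r s : ℤ) (hdet : 0 < p * s - q * r) :
    ∃ (δ : SL(2, ℤ)) (g b d : ℕ), 0 < g ∧ b < d ∧ (g : ℤ) * d = p * s - q * r ∧
      p = δ 0 0 * g ∧ q = δ 0 0 * b + δ 0 1 * d ∧ r = δ 1 0 * g ∧ s = δ 1 0 * b + δ 1 1 * d := by
  set g : ℕ := Int.gcd p r with hg
  have hgpos : 0 < g := by
    rcases Nat.eq_zero_or_pos g with h | h
    · exfalso
      rw [hg, Int.gcd_eq_zero_iff] at h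
      rw [h.1, h.2] at hdet
      simp at hdet
    · exact h
  have hbez := Int.gcd_eq_gcd_ab p r
  rw [← hg] at hbez
  set u := Int.gcdA p r with hu
  set v := Int.gcdB p r with hv
  have ha1 : (g : ℤ) ∣ p := Int.gcd_dvd_left _ _
  have ha2 : (g : ℤ) ∣ r := Int.gcd_dvd_right _ _
  obtain ⟨x, hx⟩ := ha1
  obtain ⟨y, hy⟩ := ha2
  have hg0 : (g : ℤ) ≠ 0 := by exact_mod_cast hgpos.ne'
  have hgZ : (0 : ℤ) < g := by exact_mod_cast hgpos
  have hxy : x * u + y * v = 1 := by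
    have : (g : ℤ) * (x * u + y * v) = g * 1 := by
      rw [mul_one]
      calc (g : ℤ) * (x * u + y * v) = (g * x) * u + (g * y) * v := by ring
        _ = p * u + r * v := by rw [← hx, ← hy]
        _ = g := hbez.symm
    exact mul_left_cancel₀ hg0 this
  set d0 : ℤ := x * s - y * q with hd0
  have hgd : (g : ℤ) * d0 = p * s - q * r := by
    rw [hd0, hx, hy]; ring
  have hd0pos : 0 < d0 := by
    have : 0 < (g : ℤ) * d0 := by rw [hgd]; exact hdet
    rcases lt_trichotomy d0 0 with h' | h' | h'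
    · exfalso; nlinarith
    · exfalso; rw [h'] at this; simp at this
    · exact h'
  set b0 : ℤ := u * q + v * s with hb0
  set k : ℤ := b0 / d0 with hk
  set b : ℤ := b0 % d0 with hb
  have hb_nonneg : 0 ≤ b := Int.emod_nonneg _ hd0pos.ne'
  have hb_lt : b < d0 := Int.emod_lt_of_pos _ hd0pos
  have hb0_eq : b0 = b + d0 * k := by rw [hb, hk]; exact (Int.emod_add_mul_ediv b0 d0).symm
  have hδdet : x * (y * k + u) - (x * k - v) * y = 1 := by linarith [hxy]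
  have hd0nat : ((d0.toNat : ℕ) : ℤ) = d0 := Int.toNat_of_nonneg hd0pos.le
  have hbnat : ((b.toNat : ℕ) : ℤ) = b := Int.toNat_of_nonneg hb_nonneg
  refine ⟨⟨!![x, x * k - v; y, y * k + u], by rw [Matrix.det_fin_two_of]; linarith [hδdet]⟩,
    g, b.toNat, d0.toNat, hgpos, ?_, ?_, ?_, ?_, ?_, ?_⟩
  · have : ((b.toNat : ℕ) : ℤ) < ((d0.toNat : ℕ) : ℤ) := by rw [hbnat, hd0nat]; exact hb_lt
    exact_mod_cast this
  · rw [hd0nat]; exact hgd
  · show p = x * (g : ℤ)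
    rw [hx]; ring
  · show q = x * ((b.toNat : ℕ) : ℤ) + (x * k - v) * ((d0.toNat : ℕ) : ℤ)
    rw [hbnat, hd0nat]
    have hb' : b = b0 - d0 * k := by linarith
    rw [hb', hb0, hd0]
    have : q = (x * u + y * v) * q := by rw [hxy, one_mul]
    linear_combination this
  · show r = y * (g : ℤ)
    rw [hy]; ring
  · show s = y * ((b.toNat : ℕ) : ℤ) + (y * k + u) * ((d0.toNat : ℕ) : ℤ)
    rw [hbnat, hd0nat]
    have hb' : b = b0 - d0 * k := by linarith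
    rw [hb', hb0, hd0]
    have : s = (x * u + y * v) * s := by rw [hxy, one_mul]
    linear_combination this


theorem hnf_ext2 {M M' : Matrix (Fin 2) (Fin 2) ℤ} (h00 : M 0 0 = M' 0 0)
    (h01 : M 0 1 = M' 0 1) (h10 : M 1 0 = M' 1 0) (h11 : M 1 1 = M' 1 1) : M = M' := by
  ext i j
  fin_cases i <;> fin_cases j <;> assumption

/-- Entries of `M * hnf_mat α`. -/
theorem hnf_mul_mat_apply {N : ℕ} (M : Matrix (Fin 2) (Fin 2) ℤ) (α : hnf_I N) :
    (M * hnf_mat α) 0 0 = M 0 0 * α.a ∧ (M * hnf_mat α) 0 1 = M 0 0 * α.b + M 0 1 * α.d ∧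
    (M * hnf_mat α) 1 0 = M 1 0 * α.a ∧ (M * hnf_mat α) 1 1 = M 1 0 * α.b + M 1 1 * α.d := by
  simp [Matrix.mul_apply, Fin.sum_univ_two]

/-- Existence of the Hermite normal form: a primitive integer matrix of determinant `N > 0`
is `γ * (a b; 0 d)` for some `γ ∈ SL(2,ℤ)` and some index `(a, b, d)` of level `N`. -/
theorem hnf_exists {N : ℕ} (hN : 0 < N) (M : Matrix (Fin 2) (Fin 2) ℤ) (hdet : M.det = N)
    (hM : hnf_Prim M) :
    ∃ (γ : SL(2, ℤ)) (α : hnf_I N), M = (γ : Matrix (Fin 2) (Fin 2) ℤ) * hnf_mat α := by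
  rw [Matrix.det_fin_two] at hdet
  have hdet' : 0 < M 0 0 * M 1 1 - M 0 1 * M 1 0 := by rw [hdet]; exact_mod_cast hN
  obtain ⟨δ, g, b, d, hg, hbd, hgd, h00, h01, h10, h11⟩ :=
    hnf_exists_entries (M 0 0) (M 0 1) (M 1 0) (M 1 1) hdet'
  have had : g * d = N := by
    have : ((g * d : ℕ) : ℤ) = (N : ℤ) := by rw [← hdet, ← hgd]; push_cast; ring
    exact_mod_cast this
  have hgcd : Nat.gcd g (Nat.gcd b d) = 1 := by
    set n := Nat.gcd g (Nat.gcd b d) with hn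
    have h1 : (n : ℤ) ∣ g := Int.natCast_dvd_natCast.mpr (Nat.gcd_dvd_left _ _)
    have h2 : (n : ℤ) ∣ b := Int.natCast_dvd_natCast.mpr
      ((Nat.gcd_dvd_right _ _).trans (Nat.gcd_dvd_left _ _))
    have h3 : (n : ℤ) ∣ d := Int.natCast_dvd_natCast.mpr
      ((Nat.gcd_dvd_right _ _).trans (Nat.gcd_dvd_right _ _))
    have hu : IsUnit (n : ℤ) := by
      apply hM
      intro i j
      fin_cases i <;> fin_cases j
      · show (n : ℤ) ∣ M 0 0
        rw [h00]; exact Dvd.dvd.mul_left h1 _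
      · show (n : ℤ) ∣ M 0 1
        rw [h01]; exact dvd_add (Dvd.dvd.mul_left h2 _) (Dvd.dvd.mul_left h3 _)
      · show (n : ℤ) ∣ M 1 0
        rw [h10]; exact Dvd.dvd.mul_left h1 _
      · show (n : ℤ) ∣ M 1 1
        rw [h11]; exact dvd_add (Dvd.dvd.mul_left h2 _) (Dvd.dvd.mul_left h3 _)
    have := Int.isUnit_iff_natAbs_eq.mp hu
    simpa using this
  refine ⟨δ, ⟨g, b, d, had, hbd, hgcd⟩, ?_⟩
  obtain ⟨e00, e01, e10, e11⟩ := hnf_mul_mat_apply (δ : Matrix (Fin 2) (Fin 2) ℤ)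
    (⟨g, b, d, had, hbd, hgcd⟩ : hnf_I N)
  ext i j
  fin_cases i <;> fin_cases j
  · show M 0 0 = _
    rw [h00]; exact e00.symm
  · show M 0 1 = _
    rw [h01]; exact e01.symm
  · show M 1 0 = _
    rw [h10]; exact e10.symm
  · show M 1 1 = _
    rw [h11]; exact e11.symm

/-- Uniqueness of the Hermite normal form, special case. -/
theorem hnf_unique_aux {N : ℕ} (hN : 0 < N) (γ : SL(2, ℤ)) (α β : hnf_I N)
    (h : (γ : Matrix (Fin 2) (Fin 2) ℤ) * hnf_mat α = hnf_mat β) : γ = 1 ∧ α = β := by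
  obtain ⟨e00, e01, e10, e11⟩ := hnf_mul_mat_apply (γ : Matrix (Fin 2) (Fin 2) ℤ) α
  rw [h] at e00 e01 e10 e11
  simp only [hnf_mat_00, hnf_mat_01, hnf_mat_10, hnf_mat_11] at e00 e01 e10 e11
  have hdet : γ 0 0 * γ 1 1 - γ 0 1 * γ 1 0 = 1 := by
    have h := γ.2
    rw [Matrix.det_fin_two] at h
    exact h
  have ha : (0 : ℤ) < α.a := by exact_mod_cast α.a_pos hN.ne'
  have ha' : (0 : ℤ) < β.a := by exact_mod_cast β.a_pos hN.ne'
  have hd : (0 : ℤ) < α.d := by exact_mod_cast α.d_pos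
  have hd' : (0 : ℤ) < β.d := by exact_mod_cast β.d_pos
  have hr : γ 1 0 = 0 := by
    rcases mul_eq_zero.mp e10.symm with h0 | h0
    · exact h0
    · exact absurd h0 ha.ne'
  rw [hr] at hdet e11
  simp only [mul_zero, sub_zero, zero_mul, zero_add] at hdet e11
  have hs : 0 < γ 1 1 := by
    by_contra hneg
    have hneg : γ 1 1 ≤ 0 := not_lt.mp hneg
    have : γ 1 1 * (α.d : ℤ) ≤ 0 := mul_nonpos_of_nonpos_of_nonneg hneg hd.le
    linarith
  have hp : γ 0 0 = 1 := by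
    rcases Int.eq_one_or_neg_one_of_mul_eq_one hdet with h1 | h1
    · exact h1
    · exfalso; rw [h1] at hdet; linarith
  have hs1 : γ 1 1 = 1 := by rw [hp, one_mul] at hdet; exact hdet
  rw [hp, one_mul] at e00 e01
  rw [hs1, one_mul] at e11
  have hbα : (α.b : ℤ) < α.d := by exact_mod_cast α.hbd
  have hbβ : (β.b : ℤ) < β.d := by exact_mod_cast β.hbd
  have hbα0 : (0 : ℤ) ≤ α.b := by positivity
  have hbβ0 : (0 : ℤ) ≤ β.b := by positivity
  have hq : γ 0 1 = 0 := by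
    rcases lt_trichotomy (γ 0 1) 0 with h0 | h0 | h0
    · exfalso
      have : γ 0 1 * (α.d : ℤ) ≤ -1 * α.d := by
        apply mul_le_mul_of_nonneg_right _ hd.le
        linarith
      linarith
    · exact h0
    · exfalso
      have : 1 * (α.d : ℤ) ≤ γ 0 1 * α.d := by
        apply mul_le_mul_of_nonneg_right _ hd.le
        linarith
      linarith
  rw [hq, zero_mul, add_zero] at e01
  refine ⟨?_, ?_⟩
  · ext i j
    fin_cases i <;> fin_cases j
    · show γ 0 0 = 1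
      exact hp
    · show γ 0 1 = 0
      exact hq
    · show γ 1 0 = 0
      exact hr
    · show γ 1 1 = 1
      exact hs1
  · exact hnf_I.ext (by exact_mod_cast e00.symm) (by exact_mod_cast e01.symm)
      (by exact_mod_cast e11.symm)

/-- Uniqueness of the Hermite normal form. -/
theorem hnf_unique {N : ℕ} (hN : 0 < N) (γ₁ γ₂ : SL(2, ℤ)) (α β : hnf_I N)
    (h : (γ₁ : Matrix (Fin 2) (Fin 2) ℤ) * hnf_mat α = (γ₂ : Matrix (Fin 2) (Fin 2) ℤ) * hnf_mat β) :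
    γ₁ = γ₂ ∧ α = β := by
  have h' : ((γ₂⁻¹ * γ₁ : SL(2, ℤ)) : Matrix (Fin 2) (Fin 2) ℤ) * hnf_mat α = hnf_mat β := by
    rw [Matrix.SpecialLinearGroup.coe_mul, Matrix.mul_assoc, h, ← Matrix.mul_assoc,
      ← Matrix.SpecialLinearGroup.coe_mul, inv_mul_cancel, Matrix.SpecialLinearGroup.coe_one,
      Matrix.one_mul]
  obtain ⟨h1, h2⟩ := hnf_unique_aux hN _ α β h'
  exact ⟨by rw [inv_mul_eq_one] at h1; exact h1.symm, h2⟩


/-! ### The right action of `SL(2,ℤ)` on the index set -/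

theorem hnf_act_exists {N : ℕ} (hN : N ≠ 0) (α : hnf_I N) (γ : SL(2, ℤ)) :
    ∃ β : hnf_I N, ∃ γ' : SL(2, ℤ),
      hnf_mat α * (γ : Matrix (Fin 2) (Fin 2) ℤ) =
        (γ' : Matrix (Fin 2) (Fin 2) ℤ) * hnf_mat β := by
  have hdet : (hnf_mat α * (γ : Matrix (Fin 2) (Fin 2) ℤ)).det = N := by
    rw [Matrix.det_mul, hnf_mat_det, γ.2, mul_one]
  obtain ⟨γ', β, h⟩ := hnf_exists (Nat.pos_of_ne_zero hN) _ hdet
    (hnf_Prim_mul_right (hnf_Prim_mat α) γ)
  exact ⟨β, γ', h⟩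

open Classical in
/-- The right action of `γ ∈ SL(2,ℤ)` on indices: `α * γ ∈ SL(2,ℤ) * (α · γ)`. -/
noncomputable def hnf_act {N : ℕ} (α : hnf_I N) (γ : SL(2, ℤ)) : hnf_I N :=
  if h : ∃ β : hnf_I N, ∃ γ' : SL(2, ℤ),
      hnf_mat α * (γ : Matrix (Fin 2) (Fin 2) ℤ) =
        (γ' : Matrix (Fin 2) (Fin 2) ℤ) * hnf_mat β then h.choose else α

theorem hnf_act_spec {N : ℕ} (hN : N ≠ 0) (α : hnf_I N) (γ : SL(2, ℤ)) :
    ∃ γ' : SL(2, ℤ), hnf_mat α * (γ : Matrix (Fin 2) (Fin 2) ℤ) =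
      (γ' : Matrix (Fin 2) (Fin 2) ℤ) * hnf_mat (hnf_act α γ) := by
  have h := hnf_act_exists hN α γ
  unfold hnf_act
  rw [dif_pos h]
  exact h.choose_spec

theorem hnf_act_eq_of {N : ℕ} (hN : N ≠ 0) {α β : hnf_I N} {γ γ' : SL(2, ℤ)}
    (h : hnf_mat α * (γ : Matrix (Fin 2) (Fin 2) ℤ) =
      (γ' : Matrix (Fin 2) (Fin 2) ℤ) * hnf_mat β) : hnf_act α γ = β := by
  obtain ⟨γ'', h''⟩ := hnf_act_spec hN α γ
  rw [h] at h''
  exact ((hnf_unique (Nat.pos_of_ne_zero hN) _ _ _ _ h'').2).symm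

theorem hnf_act_one {N : ℕ} (hN : N ≠ 0) (α : hnf_I N) : hnf_act α 1 = α := by
  apply hnf_act_eq_of hN (γ' := 1)
  simp

theorem hnf_act_mul {N : ℕ} (hN : N ≠ 0) (α : hnf_I N) (γ₁ γ₂ : SL(2, ℤ)) :
    hnf_act α (γ₁ * γ₂) = hnf_act (hnf_act α γ₁) γ₂ := by
  obtain ⟨δ₁, h₁⟩ := hnf_act_spec hN α γ₁
  obtain ⟨δ₂, h₂⟩ := hnf_act_spec hN (hnf_act α γ₁) γ₂
  apply hnf_act_eq_of hN (γ' := δ₁ * δ₂)
  rw [Matrix.SpecialLinearGroup.coe_mul, Matrix.SpecialLinearGroup.coe_mul, ← Matrix.mul_assoc,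
    h₁, Matrix.mul_assoc, h₂, Matrix.mul_assoc]

/-- `γ` acts on the index set by a permutation. -/
noncomputable def hnf_perm {N : ℕ} (hN : N ≠ 0) (γ : SL(2, ℤ)) : Equiv.Perm (hnf_I N) where
  toFun α := hnf_act α γ
  invFun α := hnf_act α γ⁻¹
  left_inv α := by
    show hnf_act (hnf_act α γ) γ⁻¹ = α
    rw [← hnf_act_mul hN, mul_inv_cancel, hnf_act_one hN]
  right_inv α := by
    show hnf_act (hnf_act α γ⁻¹) γ = α
    rw [← hnf_act_mul hN, inv_mul_cancel, hnf_act_one hN]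

@[simp] theorem hnf_perm_apply {N : ℕ} (hN : N ≠ 0) (γ : SL(2, ℤ)) (α : hnf_I N) :
    hnf_perm hN γ α = hnf_act α γ := rfl

theorem hnf_act_injective {N : ℕ} (hN : N ≠ 0) (γ : SL(2, ℤ)) :
    Function.Injective (fun α : hnf_I N => hnf_act α γ) := (hnf_perm hN γ).injective

theorem hnf_act_surjective {N : ℕ} (hN : N ≠ 0) (γ : SL(2, ℤ)) :
    Function.Surjective (fun α : hnf_I N => hnf_act α γ) := (hnf_perm hN γ).surjective

/-! ### The index `∞ = (N, 0, 1)` -/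

/-- The index `(N, 0, 1)`, i.e. the matrix `diag(N, 1)`. -/
def hnf_inf (N : ℕ) : hnf_I N where
  a := N
  b := 0
  d := 1
  had := mul_one N
  hbd := Nat.zero_lt_one
  hgcd := by simp

@[simp] theorem hnf_inf_a (N : ℕ) : (hnf_inf N).a = N := rfl
@[simp] theorem hnf_inf_b (N : ℕ) : (hnf_inf N).b = 0 := rfl
@[simp] theorem hnf_inf_d (N : ℕ) : (hnf_inf N).d = 1 := rfl

theorem hnf_mat_inf (N : ℕ) : hnf_mat (hnf_inf N) = !![(N : ℤ), 0; 0, 1] := by
  unfold hnf_mat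
  simp

theorem hnf_a_eq_iff {N : ℕ} (hN : N ≠ 0) (α : hnf_I N) : α.a = N ↔ α = hnf_inf N := by
  constructor
  · intro h
    have hd : α.d = 1 := by
      have h1 := α.had
      rw [h] at h1
      exact Nat.eq_of_mul_eq_mul_left (Nat.pos_of_ne_zero hN) (by rw [h1, mul_one])
    have hb : α.b = 0 := by
      have := α.hbd
      omega
    exact hnf_I.ext h hb hd
  · intro h
    rw [h]
    rfl

theorem hnf_dvd_a_iff {N : ℕ} (hN : N ≠ 0) (α : hnf_I N) : N ∣ α.a ↔ α = hnf_inf N := by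
  rw [← hnf_a_eq_iff hN]
  constructor
  · intro h
    exact Nat.dvd_antisymm α.a_dvd h
  · intro h
    rw [h]

/-- Bridge to the `γ`-indexed description: the `a`-entry of `∞ · γ` at level `m` is
`gcd(m, r)`, `r` the lower left entry of `γ`. -/
theorem hnf_act_inf_a {m : ℕ} (hm : m ≠ 0) (γ : SL(2, ℤ)) :
    (hnf_act (hnf_inf m) γ).a = Nat.gcd m (γ 1 0).natAbs := by
  obtain ⟨δ, h⟩ := hnf_act_spec hm (hnf_inf m) γ
  set β := hnf_act (hnf_inf m) γ with hβ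
  obtain ⟨e00, -, e10, -⟩ := hnf_mul_mat_apply (δ : Matrix (Fin 2) (Fin 2) ℤ) β
  rw [← h, hnf_mat_inf] at e00 e10
  simp only [Matrix.mul_apply, Fin.sum_univ_two, Matrix.of_apply, Matrix.cons_val_zero,
    Matrix.cons_val_one, Matrix.cons_val', Matrix.empty_val', Matrix.cons_val_fin_one,
    zero_mul, add_zero, one_mul, zero_add] at e00 e10
  -- e00 : m * γ 0 0 = δ 0 0 * β.a ;  e10 : γ 1 0 = δ 1 0 * β.a
  have hγ : IsCoprime (γ 0 0) (γ 1 0) := by
    have hdet := γ.2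
    rw [Matrix.det_fin_two] at hdet
    exact ⟨γ 1 1, -γ 0 1, by linarith⟩
  have hδ : IsCoprime (δ 0 0) (δ 1 0) := by
    have hdet := δ.2
    rw [Matrix.det_fin_two] at hdet
    exact ⟨δ 1 1, -δ 0 1, by linarith⟩
  have h1 : Int.gcd ((m : ℤ) * γ 0 0) (γ 1 0) = Nat.gcd m (γ 1 0).natAbs := by
    have h1 : Int.gcd (γ 0 0) (γ 1 0) = 1 := Int.isCoprime_iff_gcd_eq_one.mp hγ
    rw [Int.gcd_eq_natAbs, Int.natAbs_mul, Int.natAbs_natCast]
    rw [Int.gcd_eq_natAbs] at h1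
    exact Nat.Coprime.gcd_mul_right_cancel m h1
  have h2 : Int.gcd ((m : ℤ) * γ 0 0) (γ 1 0) = β.a := by
    rw [e00, e10, Int.gcd_mul_right, Int.isCoprime_iff_gcd_eq_one.mp hδ, one_mul,
      Int.natAbs_natCast]
  rw [← h1, h2]


/-! ### Level lowering: the projection `hnf_I N → hnf_I m` for `m ∣ N` -/

/-- Entries of a factorisation `hnf_mat α = μ * hnf_mat β`. -/
theorem hnf_factor_entries {N m : ℕ} (hm : m ≠ 0) {α : hnf_I N} {β : hnf_I m}
    {μ : Matrix (Fin 2) (Fin 2) ℤ} (h : hnf_mat α = μ * hnf_mat β) :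
    μ 1 0 = 0 ∧ (α.a : ℤ) = μ 0 0 * β.a ∧ (α.b : ℤ) = μ 0 0 * β.b + μ 0 1 * β.d ∧
      (α.d : ℤ) = μ 1 1 * β.d := by
  obtain ⟨e00, e01, e10, e11⟩ := hnf_mul_mat_apply μ β
  rw [← h] at e00 e01 e10 e11
  simp only [hnf_mat_00, hnf_mat_01, hnf_mat_10, hnf_mat_11] at e00 e01 e10 e11
  have ha : (0 : ℤ) < β.a := by exact_mod_cast β.a_pos hm
  have hr : μ 1 0 = 0 := by
    rcases mul_eq_zero.mp e10.symm with h0 | h0
    · exact h0
    · exact absurd h0 ha.ne'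
  rw [hr, zero_mul, zero_add] at e11
  exact ⟨hr, e00, e01, e11⟩

/-- In a factorisation `hnf_mat α = μ * hnf_mat β` the entry `μ 0 0` is prime to `β.d`. -/
theorem hnf_factor_coprime {N m : ℕ} (hm : m ≠ 0) {α : hnf_I N} {β : hnf_I m}
    {μ : Matrix (Fin 2) (Fin 2) ℤ} (h : hnf_mat α = μ * hnf_mat β) :
    Int.gcd (μ 0 0) (β.d : ℤ) = 1 := by
  obtain ⟨-, ea, eb, ed⟩ := hnf_factor_entries hm h
  set p := Int.gcd (μ 0 0) (β.d : ℤ) with hp
  have h1 : (p : ℤ) ∣ μ 0 0 := Int.gcd_dvd_left _ _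
  have h2 : (p : ℤ) ∣ (β.d : ℤ) := Int.gcd_dvd_right _ _
  have ha : (p : ℤ) ∣ (α.a : ℤ) := by rw [ea]; exact Dvd.dvd.mul_right h1 _
  have hb : (p : ℤ) ∣ (α.b : ℤ) := by
    rw [eb]; exact dvd_add (Dvd.dvd.mul_right h1 _) (Dvd.dvd.mul_left h2 _)
  have hd : (p : ℤ) ∣ (α.d : ℤ) := by rw [ed]; exact Dvd.dvd.mul_left h2 _
  have : p ∣ 1 := by
    rw [← α.hgcd]
    exact Nat.dvd_gcd (Int.natCast_dvd_natCast.mp ha)
      (Nat.dvd_gcd (Int.natCast_dvd_natCast.mp hb) (Int.natCast_dvd_natCast.mp hd))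
  exact Nat.dvd_one.mp this

/-- KEY FACT: if `(a b; 0 d) = μ * (a' b'; 0 d')` with `μ` integral and `(a', b', d')` an index of
level `m`, then `a' = gcd(a, m)`. -/
theorem hnf_factor_a {N m : ℕ} (hm : m ≠ 0) {α : hnf_I N} {β : hnf_I m}
    {μ : Matrix (Fin 2) (Fin 2) ℤ} (h : hnf_mat α = μ * hnf_mat β) :
    β.a = Nat.gcd α.a m := by
  obtain ⟨-, ea, -, -⟩ := hnf_factor_entries hm h
  have hcop := hnf_factor_coprime hm h
  have hmZ : (m : ℤ) = (β.d : ℤ) * β.a := by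
    have := β.had
    rw [mul_comm]
    exact_mod_cast this.symm
  have : Int.gcd (α.a : ℤ) (m : ℤ) = β.a := by
    rw [ea, hmZ, Int.gcd_mul_right, hcop, one_mul, Int.natAbs_natCast]
  rw [← this, Int.gcd_natCast_natCast]

/-- Uniqueness of the level-`m` right divisor in Hermite normal form. -/
theorem hnf_factor_unique {N m : ℕ} (hm : m ≠ 0) {α : hnf_I N} {β β' : hnf_I m}
    {μ μ' : Matrix (Fin 2) (Fin 2) ℤ} (h : hnf_mat α = μ * hnf_mat β)
    (h' : hnf_mat α = μ' * hnf_mat β') : β = β' := by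
  have ha : β.a = β'.a := by rw [hnf_factor_a hm h, hnf_factor_a hm h']
  have hapos : 0 < β.a := β.a_pos hm
  have hd : β.d = β'.d := by
    have h1 := β.had
    have h2 := β'.had
    rw [← ha] at h2
    exact Nat.eq_of_mul_eq_mul_left hapos (h1.trans h2.symm)
  obtain ⟨-, ea, eb, -⟩ := hnf_factor_entries hm h
  obtain ⟨-, ea', eb', -⟩ := hnf_factor_entries hm h'
  have hcop := hnf_factor_coprime hm h
  rw [← ha] at ea'
  rw [← hd] at eb'
  have hx : μ 0 0 = μ' 0 0 := by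
    have ha0 : (β.a : ℤ) ≠ 0 := by exact_mod_cast hapos.ne'
    exact mul_right_cancel₀ ha0 (ea.symm.trans ea')
  rw [← hx] at eb'
  have hdvd : (β.d : ℤ) ∣ μ 0 0 * ((β.b : ℤ) - β'.b) := by
    refine ⟨μ' 0 1 - μ 0 1, ?_⟩
    linear_combination eb' - eb
  have hdvd' : (β.d : ℤ) ∣ (β.b : ℤ) - β'.b := by
    have hc : IsCoprime (β.d : ℤ) (μ 0 0) :=
      (Int.isCoprime_iff_gcd_eq_one.mpr hcop).symm
    exact hc.dvd_of_dvd_mul_left hdvd
  have hb : (β.b : ℤ) - β'.b = 0 := by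
    apply Int.eq_zero_of_abs_lt_dvd hdvd'
    have h1 : (β.b : ℤ) < β.d := by exact_mod_cast β.hbd
    have h2 : (β'.b : ℤ) < β.d := by rw [hd]; exact_mod_cast β'.hbd
    have h3 : (0 : ℤ) ≤ β.b := by positivity
    have h4 : (0 : ℤ) ≤ β'.b := by positivity
    rw [abs_lt]
    constructor <;> linarith
  have hb' : (β.b : ℤ) = β'.b := by linarith
  exact hnf_I.ext ha (by exact_mod_cast hb') hd

/-- Existence of the level-`m` right divisor, `m ∣ N`. -/
theorem hnf_proj_exists {N m : ℕ} (hN : N ≠ 0) (hmN : m ∣ N) (α : hnf_I N) :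
    ∃ β : hnf_I m, ∃ μ : Matrix (Fin 2) (Fin 2) ℤ, hnf_mat α = μ * hnf_mat β := by
  have hm : m ≠ 0 := ne_zero_of_dvd_ne_zero hN hmN
  set a' : ℕ := Nat.gcd α.a m with ha'
  have ha'pos : 0 < a' := Nat.gcd_pos_of_pos_right _ (Nat.pos_of_ne_zero hm)
  set d' : ℕ := m / a' with hd'
  have had' : a' * d' = m := Nat.mul_div_cancel' (Nat.gcd_dvd_right _ _)
  set x : ℕ := α.a / a' with hx
  have hxa : x * a' = α.a := Nat.div_mul_cancel (Nat.gcd_dvd_left _ _)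
  have hcop : Nat.Coprime x d' := Nat.coprime_div_gcd_div_gcd ha'pos
  have hd'pos : 0 < d' := by
    rcases Nat.eq_zero_or_pos d' with h0 | h0
    · exfalso; rw [h0, mul_zero] at had'; exact hm had'.symm
    · exact h0
  have hd'd : d' ∣ α.d := by
    have h1 : a' * d' ∣ a' * (x * α.d) := by
      rw [had', ← mul_assoc, mul_comm a' x, hxa, α.had]
      exact hmN
    have h2 : d' ∣ x * α.d := Nat.dvd_of_mul_dvd_mul_left ha'pos h1
    exact (Nat.Coprime.symm hcop).dvd_of_dvd_mul_left h2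
  obtain ⟨w, hw⟩ := hd'd
  obtain ⟨u, v, huv⟩ := Nat.isCoprime_iff_coprime.mpr hcop
  -- `u * x + v * d' = 1`
  have hd'Z : (0 : ℤ) < d' := by exact_mod_cast hd'pos
  set b0 : ℤ := (u * α.b) % d' with hb0
  set k : ℤ := (u * α.b) / d' with hk
  have hb0_nonneg : 0 ≤ b0 := Int.emod_nonneg _ hd'Z.ne'
  have hb0_lt : b0 < d' := Int.emod_lt_of_pos _ hd'Z
  have hub : u * (α.b : ℤ) = b0 + d' * k := by
    rw [hb0, hk]; exact (Int.emod_add_mul_ediv _ _).symm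
  have hb0nat : ((b0.toNat : ℕ) : ℤ) = b0 := Int.toNat_of_nonneg hb0_nonneg
  set y : ℤ := v * α.b + x * k with hy
  have hbeq : (α.b : ℤ) = x * b0 + y * d' := by
    have : (α.b : ℤ) = (u * x + v * d') * α.b := by rw [huv, one_mul]
    rw [hy]
    have hb0' : b0 = u * (α.b : ℤ) - d' * k := by linarith
    rw [hb0']
    linear_combination this
  have hblt : b0.toNat < d' := by
    have : ((b0.toNat : ℕ) : ℤ) < (d' : ℤ) := by rw [hb0nat]; exact hb0_lt
    exact_mod_cast this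
  have hgcd : Nat.gcd a' (Nat.gcd b0.toNat d') = 1 := by
    set n := Nat.gcd a' (Nat.gcd b0.toNat d') with hn
    have h1 : n ∣ a' := Nat.gcd_dvd_left _ _
    have h2 : n ∣ b0.toNat := (Nat.gcd_dvd_right _ _).trans (Nat.gcd_dvd_left _ _)
    have h3 : n ∣ d' := (Nat.gcd_dvd_right _ _).trans (Nat.gcd_dvd_right _ _)
    have ha : n ∣ α.a := h1.trans (Nat.gcd_dvd_left _ _)
    have hd : n ∣ α.d := h3.trans ⟨w, hw⟩
    have hb : n ∣ α.b := by
      have : (n : ℤ) ∣ (α.b : ℤ) := by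
        rw [hbeq]
        apply dvd_add
        · apply Dvd.dvd.mul_left
          rw [← hb0nat]
          exact Int.natCast_dvd_natCast.mpr h2
        · apply Dvd.dvd.mul_left
          exact Int.natCast_dvd_natCast.mpr h3
      exact Int.natCast_dvd_natCast.mp this
    have : n ∣ 1 := by
      rw [← α.hgcd]
      exact Nat.dvd_gcd ha (Nat.dvd_gcd hb hd)
    exact Nat.dvd_one.mp this
  refine ⟨⟨a', b0.toNat, d', had', hblt, hgcd⟩, !![(x : ℤ), y; 0, (w : ℤ)], ?_⟩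
  obtain ⟨e00, e01, e10, e11⟩ := hnf_mul_mat_apply !![(x : ℤ), y; 0, (w : ℤ)]
    (⟨a', b0.toNat, d', had', hblt, hgcd⟩ : hnf_I m)
  apply hnf_ext2
  · rw [e00]
    simp only [hnf_mat_00, Matrix.of_apply, Matrix.cons_val_zero, Matrix.cons_val',
      Matrix.empty_val', Matrix.cons_val_fin_one]
    exact_mod_cast hxa.symm
  · rw [e01]
    simp only [hnf_mat_01, Matrix.of_apply, Matrix.cons_val_zero, Matrix.cons_val_one,
      Matrix.cons_val', Matrix.empty_val', Matrix.cons_val_fin_one]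
    rw [hb0nat]
    exact hbeq
  · rw [e10]
    simp
  · rw [e11]
    simp only [hnf_mat_11, Matrix.of_apply, Matrix.cons_val_zero, Matrix.cons_val_one,
      Matrix.cons_val', Matrix.empty_val', Matrix.cons_val_fin_one, zero_mul, zero_add]
    rw [hw]
    push_cast
    ring


open Classical in
/-- The level-`m` projection of an index of level `N` (`m ∣ N`): the unique index `β` of level `m`
with `hnf_mat α ∈ M₂(ℤ) * hnf_mat β`. -/
noncomputable def hnf_proj {N : ℕ} (m : ℕ) (α : hnf_I N) : hnf_I m :=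
  if h : ∃ β : hnf_I m, ∃ μ : Matrix (Fin 2) (Fin 2) ℤ, hnf_mat α = μ * hnf_mat β then h.choose
  else hnf_inf m

theorem hnf_proj_spec {N m : ℕ} (hN : N ≠ 0) (hmN : m ∣ N) (α : hnf_I N) :
    ∃ μ : Matrix (Fin 2) (Fin 2) ℤ, hnf_mat α = μ * hnf_mat (hnf_proj m α) := by
  have h := hnf_proj_exists hN hmN α
  unfold hnf_proj
  rw [dif_pos h]
  exact h.choose_spec

theorem hnf_proj_eq_of {N m : ℕ} (hm : m ≠ 0) {α : hnf_I N} {β : hnf_I m}
    {μ : Matrix (Fin 2) (Fin 2) ℤ} (h : hnf_mat α = μ * hnf_mat β) : hnf_proj m α = β := by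
  have hex : ∃ β : hnf_I m, ∃ μ : Matrix (Fin 2) (Fin 2) ℤ, hnf_mat α = μ * hnf_mat β :=
    ⟨β, μ, h⟩
  unfold hnf_proj
  rw [dif_pos hex]
  obtain ⟨μ', h'⟩ := hex.choose_spec
  exact hnf_factor_unique hm h' h

/-- KEY FACT: the `a`-entry of the level-`m` projection is `gcd(a, m)`. -/
theorem hnf_proj_a {N m : ℕ} (hN : N ≠ 0) (hmN : m ∣ N) (α : hnf_I N) :
    (hnf_proj m α).a = Nat.gcd α.a m := by
  obtain ⟨μ, h⟩ := hnf_proj_spec hN hmN α
  exact hnf_factor_a (ne_zero_of_dvd_ne_zero hN hmN) h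

theorem hnf_proj_d {N m : ℕ} (hN : N ≠ 0) (hmN : m ∣ N) (α : hnf_I N) :
    (hnf_proj m α).d = m / Nat.gcd α.a m := by
  have hm : m ≠ 0 := ne_zero_of_dvd_ne_zero hN hmN
  have h := (hnf_proj m α).had
  rw [hnf_proj_a hN hmN α] at h
  exact (Nat.div_eq_of_eq_mul_right (Nat.gcd_pos_of_pos_right _ (Nat.pos_of_ne_zero hm))
    h.symm).symm

theorem hnf_proj_self {N : ℕ} (hN : N ≠ 0) (α : hnf_I N) : hnf_proj N α = α :=
  hnf_proj_eq_of hN (μ := 1) (by simp)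

theorem hnf_proj_proj {N m m' : ℕ} (hN : N ≠ 0) (hmN : m ∣ N) (hm'm : m' ∣ m) (α : hnf_I N) :
    hnf_proj m' (hnf_proj m α) = hnf_proj m' α := by
  have hm : m ≠ 0 := ne_zero_of_dvd_ne_zero hN hmN
  have hm' : m' ≠ 0 := ne_zero_of_dvd_ne_zero hm hm'm
  obtain ⟨μ, h⟩ := hnf_proj_spec hN hmN α
  obtain ⟨μ', h'⟩ := hnf_proj_spec hm hm'm (hnf_proj m α)
  symm
  apply hnf_proj_eq_of hm' (μ := μ * μ')
  rw [Matrix.mul_assoc, ← h', ← h]

/-- EQUIVARIANCE of the projection for the right `SL(2,ℤ)`-actions. -/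
theorem hnf_proj_act {N m : ℕ} (hN : N ≠ 0) (hmN : m ∣ N) (α : hnf_I N) (γ : SL(2, ℤ)) :
    hnf_proj m (hnf_act α γ) = hnf_act (hnf_proj m α) γ := by
  have hm : m ≠ 0 := ne_zero_of_dvd_ne_zero hN hmN
  obtain ⟨μ, h⟩ := hnf_proj_spec hN hmN α
  obtain ⟨δ, hδ⟩ := hnf_act_spec hN α γ
  obtain ⟨ε, hε⟩ := hnf_act_spec hm (hnf_proj m α) γ
  apply hnf_proj_eq_of hm
    (μ := ((δ⁻¹ : SL(2, ℤ)) : Matrix (Fin 2) (Fin 2) ℤ) * μ * (ε : Matrix (Fin 2) (Fin 2) ℤ))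
  have h1 : hnf_mat (hnf_act α γ) =
      ((δ⁻¹ : SL(2, ℤ)) : Matrix (Fin 2) (Fin 2) ℤ) *
        (hnf_mat α * (γ : Matrix (Fin 2) (Fin 2) ℤ)) := by
    rw [hδ, ← Matrix.mul_assoc, ← Matrix.SpecialLinearGroup.coe_mul, inv_mul_cancel,
      Matrix.SpecialLinearGroup.coe_one, Matrix.one_mul]
  rw [h1, h, Matrix.mul_assoc μ, hε]
  simp only [Matrix.mul_assoc]

theorem hnf_proj_inf {N m : ℕ} (hN : N ≠ 0) (hmN : m ∣ N) :
    hnf_proj m (hnf_inf N) = hnf_inf m := by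
  have hm : m ≠ 0 := ne_zero_of_dvd_ne_zero hN hmN
  obtain ⟨c, hc⟩ := hmN
  apply hnf_proj_eq_of hm (μ := !![(c : ℤ), 0; 0, 1])
  rw [hnf_mat_inf, hnf_mat_inf, hc]
  apply hnf_ext2 <;> simp [Matrix.mul_apply, Fin.sum_univ_two, mul_comm]

/-- The projection of `∞ · γ`: for `γ ∈ SL(2,ℤ)` the index of `diag(m,1) * γ` is the level-`m`
projection of the index of `diag(N,1) * γ`. -/
theorem hnf_proj_act_inf {N m : ℕ} (hN : N ≠ 0) (hmN : m ∣ N) (γ : SL(2, ℤ)) :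
    hnf_proj m (hnf_act (hnf_inf N) γ) = hnf_act (hnf_inf m) γ := by
  rw [hnf_proj_act hN hmN, hnf_proj_inf hN hmN]

/-! ### The Galois twist `(a, b, d) ↦ (a, k b mod d, d)` -/

/-- The twist of an index by `k` prime to `N` (the action of `σ_k : ζ_N ↦ ζ_N ^ k` on the
conjugates of `j(N z)`). -/
def hnf_twist {N : ℕ} (k : ℕ) (hk : Nat.Coprime k N) (α : hnf_I N) : hnf_I N where
  a := α.a
  b := (k * α.b) % α.d
  d := α.d
  had := α.had
  hbd := Nat.mod_lt _ α.d_pos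
  hgcd := by
    have hkd : Nat.Coprime k α.d := Nat.Coprime.coprime_dvd_right α.d_dvd hk
    have h1 : Nat.gcd ((k * α.b) % α.d) α.d = Nat.gcd α.b α.d := by
      rw [← Nat.gcd_rec, Nat.gcd_comm]
      exact Nat.Coprime.gcd_mul_left_cancel α.b hkd
    rw [h1]
    exact α.hgcd

@[simp] theorem hnf_twist_a {N : ℕ} (k : ℕ) (hk : Nat.Coprime k N) (α : hnf_I N) :
    (hnf_twist k hk α).a = α.a := rfl
@[simp] theorem hnf_twist_b {N : ℕ} (k : ℕ) (hk : Nat.Coprime k N) (α : hnf_I N) :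
    (hnf_twist k hk α).b = (k * α.b) % α.d := rfl
@[simp] theorem hnf_twist_d {N : ℕ} (k : ℕ) (hk : Nat.Coprime k N) (α : hnf_I N) :
    (hnf_twist k hk α).d = α.d := rfl

theorem hnf_twist_one {N : ℕ} (α : hnf_I N) :
    hnf_twist 1 (Nat.coprime_one_left N) α = α := by
  refine hnf_I.ext rfl ?_ rfl
  show (1 * α.b) % α.d = α.b
  rw [one_mul]
  exact Nat.mod_eq_of_lt α.hbd

theorem hnf_twist_twist {N : ℕ} (k k' : ℕ) (hk : Nat.Coprime k N) (hk' : Nat.Coprime k' N)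
    (α : hnf_I N) :
    hnf_twist k hk (hnf_twist k' hk' α) = hnf_twist (k * k') (Nat.Coprime.mul_left hk hk') α := by
  refine hnf_I.ext rfl ?_ rfl
  show (k * ((k' * α.b) % α.d)) % α.d = (k * k' * α.b) % α.d
  rw [mul_assoc]
  exact (Nat.ModEq.mul_left k (Nat.mod_modEq _ _))

theorem hnf_twist_congr {N : ℕ} {k k' : ℕ} (hk : Nat.Coprime k N) (hk' : Nat.Coprime k' N)
    (h : k ≡ k' [MOD N]) (α : hnf_I N) : hnf_twist k hk α = hnf_twist k' hk' α := by
  refine hnf_I.ext rfl ?_ rfl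
  show (k * α.b) % α.d = (k' * α.b) % α.d
  exact Nat.ModEq.mul_right _ (Nat.ModEq.of_dvd α.d_dvd h)

theorem hnf_twist_injective {N : ℕ} (k : ℕ) (hk : Nat.Coprime k N) :
    Function.Injective (hnf_twist (N := N) k hk) := by
  intro α β h
  have ha : α.a = β.a := by
    have := congrArg hnf_I.a h
    exact this
  have hd : α.d = β.d := by
    have := congrArg hnf_I.d h
    exact this
  have hb : (k * α.b) % α.d = (k * β.b) % β.d := by
    have := congrArg hnf_I.b h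
    exact this
  rw [← hd] at hb
  have hkd : Nat.Coprime α.d k := (Nat.Coprime.coprime_dvd_right α.d_dvd hk).symm
  have hmod : α.b ≡ β.b [MOD α.d] := Nat.ModEq.cancel_left_of_coprime hkd hb
  have hb' : α.b = β.b := by
    have h1 := Nat.mod_eq_of_lt α.hbd
    have h2 : β.b % α.d = β.b := Nat.mod_eq_of_lt (by rw [hd]; exact β.hbd)
    rw [← h1, ← h2]
    exact hmod
  exact hnf_I.ext ha hb' hd

theorem hnf_twist_bijective {N : ℕ} (hN : N ≠ 0) (k : ℕ) (hk : Nat.Coprime k N) :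
    Function.Bijective (hnf_twist (N := N) k hk) := by
  have : NeZero N := ⟨hN⟩
  exact Finite.injective_iff_bijective.mp (hnf_twist_injective k hk)

/-- The twist commutes with the level-`m` projection. -/
theorem hnf_proj_twist {N m : ℕ} (hN : N ≠ 0) (hmN : m ∣ N) (k : ℕ) (hk : Nat.Coprime k N)
    (α : hnf_I N) :
    hnf_proj m (hnf_twist k hk α) =
      hnf_twist k (Nat.Coprime.coprime_dvd_right hmN hk) (hnf_proj m α) := by
  have hm : m ≠ 0 := ne_zero_of_dvd_ne_zero hN hmN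
  obtain ⟨μ, h⟩ := hnf_proj_spec hN hmN α
  set β := hnf_proj m α with hβ
  obtain ⟨h10, ea, eb, ed⟩ := hnf_factor_entries hm h
  -- `k b = (k b) % d + d t`, `k b' = (k b') % d' + d' s`
  set t : ℤ := ((k * α.b : ℕ) : ℤ) / (α.d : ℤ) with ht
  set s : ℤ := ((k * β.b : ℕ) : ℤ) / (β.d : ℤ) with hs
  have e1 : (((k * α.b) % α.d : ℕ) : ℤ) = (k : ℤ) * α.b - α.d * t := by
    have := Int.emod_add_mul_ediv ((k * α.b : ℕ) : ℤ) (α.d : ℤ)
    rw [ht]
    push_cast at this ⊢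
    linarith
  have e2 : (((k * β.b) % β.d : ℕ) : ℤ) = (k : ℤ) * β.b - β.d * s := by
    have := Int.emod_add_mul_ediv ((k * β.b : ℕ) : ℤ) (β.d : ℤ)
    rw [hs]
    push_cast at this ⊢
    linarith
  apply hnf_proj_eq_of hm
    (μ := !![μ 0 0, μ 0 0 * s + (k : ℤ) * μ 0 1 - μ 1 1 * t; 0, μ 1 1])
  obtain ⟨e00, e01, e10, e11⟩ := hnf_mul_mat_apply
    !![μ 0 0, μ 0 0 * s + (k : ℤ) * μ 0 1 - μ 1 1 * t; 0, μ 1 1]
    (hnf_twist k (Nat.Coprime.coprime_dvd_right hmN hk) β)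
  apply hnf_ext2
  · rw [e00]
    simp only [hnf_mat_00, hnf_twist_a, Matrix.of_apply, Matrix.cons_val_zero, Matrix.cons_val',
      Matrix.empty_val', Matrix.cons_val_fin_one]
    exact ea
  · rw [e01]
    simp only [hnf_mat_01, hnf_twist_b, hnf_twist_d, Matrix.of_apply, Matrix.cons_val_zero,
      Matrix.cons_val_one, Matrix.cons_val', Matrix.empty_val', Matrix.cons_val_fin_one]
    rw [e1, e2, eb, ed]
    ring
  · rw [e10]
    simp
  · rw [e11]
    simp only [hnf_mat_11, hnf_twist_d, Matrix.of_apply, Matrix.cons_val_zero,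
      Matrix.cons_val_one, Matrix.cons_val', Matrix.empty_val', Matrix.cons_val_fin_one,
      zero_mul, zero_add]
    exact ed


/-! ### The translation `T ^ n` and the counting hypothesis of the Moebius argument -/

/-- The explicit action of the translation `T ^ n = (1 n; 0 1)`:
`(a, b, d) ↦ (a, (b + n a) mod d, d)`. -/
theorem hnf_act_T_zpow {N : ℕ} (hN : N ≠ 0) (α : hnf_I N) (n : ℤ) :
    (hnf_act α (ModularGroup.T ^ n)).a = α.a ∧ (hnf_act α (ModularGroup.T ^ n)).d = α.d ∧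
      ((hnf_act α (ModularGroup.T ^ n)).b : ℤ) = ((α.b : ℤ) + n * α.a) % α.d := by
  have hdZ : (0 : ℤ) < α.d := by exact_mod_cast α.d_pos
  set c : ℤ := ((α.b : ℤ) + n * α.a) % α.d with hc
  set q : ℤ := ((α.b : ℤ) + n * α.a) / α.d with hq
  have hc_nonneg : 0 ≤ c := Int.emod_nonneg _ hdZ.ne'
  have hc_lt : c < α.d := Int.emod_lt_of_pos _ hdZ
  have hcq : (α.b : ℤ) + n * α.a = c + α.d * q := by
    rw [hc, hq]; exact (Int.emod_add_mul_ediv _ _).symm
  have hcnat : ((c.toNat : ℕ) : ℤ) = c := Int.toNat_of_nonneg hc_nonneg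
  have hlt : c.toNat < α.d := by
    have : ((c.toNat : ℕ) : ℤ) < (α.d : ℤ) := by rw [hcnat]; exact hc_lt
    exact_mod_cast this
  have hgcd : Nat.gcd α.a (Nat.gcd c.toNat α.d) = 1 := by
    set g := Nat.gcd α.a (Nat.gcd c.toNat α.d) with hg
    have h1 : g ∣ α.a := Nat.gcd_dvd_left _ _
    have h2 : g ∣ c.toNat := (Nat.gcd_dvd_right _ _).trans (Nat.gcd_dvd_left _ _)
    have h3 : g ∣ α.d := (Nat.gcd_dvd_right _ _).trans (Nat.gcd_dvd_right _ _)
    have hb : g ∣ α.b := by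
      have h2' : (g : ℤ) ∣ c := by rw [← hcnat]; exact Int.natCast_dvd_natCast.mpr h2
      have : (g : ℤ) ∣ (α.b : ℤ) := by
        have e : (α.b : ℤ) = c + α.d * q - n * α.a := by linarith
        rw [e]
        exact dvd_sub (dvd_add h2' (Dvd.dvd.mul_right (Int.natCast_dvd_natCast.mpr h3) _))
          (Dvd.dvd.mul_left (Int.natCast_dvd_natCast.mpr h1) _)
      exact Int.natCast_dvd_natCast.mp this
    have : g ∣ 1 := by
      rw [← α.hgcd]
      exact Nat.dvd_gcd h1 (Nat.dvd_gcd hb h3)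
    exact Nat.dvd_one.mp this
  have key : hnf_act α (ModularGroup.T ^ n) = ⟨α.a, c.toNat, α.d, α.had, hlt, hgcd⟩ := by
    apply hnf_act_eq_of hN (γ' := ModularGroup.T ^ q)
    have e1 : ((ModularGroup.T ^ n : SL(2, ℤ)) : Matrix (Fin 2) (Fin 2) ℤ) = !![1, n; 0, 1] :=
      ModularGroup.coe_T_zpow n
    have e2 : ((ModularGroup.T ^ q : SL(2, ℤ)) : Matrix (Fin 2) (Fin 2) ℤ) = !![1, q; 0, 1] :=
      ModularGroup.coe_T_zpow q
    rw [e1, e2]
    apply hnf_ext2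
    · simp [Matrix.mul_apply, Fin.sum_univ_two]
    · simp only [Matrix.mul_apply, Fin.sum_univ_two, hnf_mat_00, hnf_mat_01,
        hnf_mat_11, Matrix.of_apply, Matrix.cons_val_zero, Matrix.cons_val_one,
        Matrix.cons_val', Matrix.empty_val', Matrix.cons_val_fin_one]
      rw [hcnat]
      linarith
    · simp [Matrix.mul_apply, Fin.sum_univ_two]
    · simp [Matrix.mul_apply, Fin.sum_univ_two]
  rw [key]
  exact ⟨rfl, rfl, hcnat⟩

/-- The hypothesis `hS1` of the Moebius counting lemma: in a set of indices containing `∞`,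
exactly one index has `N ∣ a`. -/
theorem hnf_filter_card_one {N : ℕ} (hN : N ≠ 0) (S : Finset (hnf_I N)) (h : hnf_inf N ∈ S) :
    (S.filter fun α => N ∣ α.a).card = 1 := by
  have : S.filter (fun α => N ∣ α.a) = {hnf_inf N} := by
    ext α
    simp only [Finset.mem_filter, Finset.mem_singleton, hnf_dvd_a_iff hN]
    constructor
    · exact fun h' => h'.2
    · intro h'
      rw [h']
      exact ⟨h, rfl⟩
  rw [this, Finset.card_singleton]


/-! ### The Hermite data `A x m`, `B x m` in the shape of the architect's `IgDatum` -/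

/-- `A α m`: the `a`-entry of the level-`m` projection of `α`. -/
noncomputable def hnf_A {N : ℕ} (α : hnf_I N) (m : ℕ) : ℕ := (hnf_proj m α).a

/-- `B α m`: the `b`-entry of the level-`m` projection of `α`. -/
noncomputable def hnf_B {N : ℕ} (α : hnf_I N) (m : ℕ) : ℕ := (hnf_proj m α).b

theorem hnf_A_self {N : ℕ} (hN : N ≠ 0) (α : hnf_I N) : hnf_A α N = α.a := by
  unfold hnf_A; rw [hnf_proj_self hN]

theorem hnf_B_self {N : ℕ} (hN : N ≠ 0) (α : hnf_I N) : hnf_B α N = α.b := by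
  unfold hnf_B; rw [hnf_proj_self hN]

theorem hnf_A_dvd {N : ℕ} (hN : N ≠ 0) (α : hnf_I N) : hnf_A α N ∣ N := by
  rw [hnf_A_self hN]; exact α.a_dvd

theorem hnf_A_dvd' {N : ℕ} (α : hnf_I N) (m : ℕ) : hnf_A α m ∣ m := (hnf_proj m α).a_dvd

theorem hnf_A_gcd {N : ℕ} (hN : N ≠ 0) (α : hnf_I N) (m : ℕ) (hmN : m ∣ N) :
    hnf_A α m = Nat.gcd (hnf_A α N) m := by
  rw [hnf_A_self hN]; exact hnf_proj_a hN hmN α

theorem hnf_A_inf {N : ℕ} (hN : N ≠ 0) : hnf_A (hnf_inf N) N = N := by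
  rw [hnf_A_self hN]; rfl

theorem hnf_eq_inf_of_A {N : ℕ} (hN : N ≠ 0) (α : hnf_I N) (h : hnf_A α N = N) :
    α = hnf_inf N := by
  rw [hnf_A_self hN] at h; exact (hnf_a_eq_iff hN α).mp h

theorem hnf_d_eq_div {N : ℕ} (hN : N ≠ 0) (α : hnf_I N) : α.d = N / α.a := by
  have h := α.had
  exact (Nat.div_eq_of_eq_mul_right (α.a_pos hN) h.symm).symm

theorem hnf_proj_d_eq {N m : ℕ} (hm : m ≠ 0) (α : hnf_I N) :
    (hnf_proj m α).d = m / hnf_A α m := hnf_d_eq_div hm (hnf_proj m α)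

theorem hnf_B_lt {N : ℕ} (α : hnf_I N) (m : ℕ) (hm : m ≠ 0) : hnf_B α m < m / hnf_A α m := by
  rw [← hnf_proj_d_eq hm α]; exact (hnf_proj m α).hbd

theorem hnf_AB_inj {N : ℕ} (hN : N ≠ 0) (α β : hnf_I N) (hA : hnf_A α N = hnf_A β N)
    (hB : hnf_B α N = hnf_B β N) : α = β := by
  rw [hnf_A_self hN, hnf_A_self hN] at hA
  rw [hnf_B_self hN, hnf_B_self hN] at hB
  refine hnf_I.ext hA hB ?_
  rw [hnf_d_eq_div hN α, hnf_d_eq_div hN β, hA]

/-- The matrix of the level-`m` projection in terms of `hnf_A`, `hnf_B`. -/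
theorem hnf_mat_proj {N m : ℕ} (hm : m ≠ 0) (α : hnf_I N) :
    hnf_mat (hnf_proj m α) =
      !![(hnf_A α m : ℤ), (hnf_B α m : ℤ); 0, ((m / hnf_A α m : ℕ) : ℤ)] := by
  rw [← hnf_proj_d_eq hm α]
  rfl

/-- The Hermite identity for `diag(m,1) * γ`, `m ∣ N`, in terms of the index
`x = ∞ · γ ∈ hnf_I N` of the coset of `γ` (shape of `ig_hnf` in `Comb/HNF.lean`). -/
theorem hnf_diag_mul {N m : ℕ} (hN : N ≠ 0) (hmN : m ∣ N) (γ : SL(2, ℤ)) :
    ∃ δ : SL(2, ℤ), !![(m : ℤ) * γ 0 0, (m : ℤ) * γ 0 1; γ 1 0, γ 1 1] =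
      (δ : Matrix (Fin 2) (Fin 2) ℤ) *
        !![(hnf_A (hnf_act (hnf_inf N) γ) m : ℤ), (hnf_B (hnf_act (hnf_inf N) γ) m : ℤ);
          0, ((m / hnf_A (hnf_act (hnf_inf N) γ) m : ℕ) : ℤ)] := by
  have hm : m ≠ 0 := ne_zero_of_dvd_ne_zero hN hmN
  obtain ⟨δ, hδ⟩ := hnf_act_spec hm (hnf_inf m) γ
  refine ⟨δ, ?_⟩
  rw [← hnf_mat_proj hm, hnf_proj_act_inf hN hmN, ← hδ, hnf_mat_inf]
  apply hnf_ext2 <;> simp [Matrix.mul_apply, Fin.sum_univ_two]

/-- The general Hermite identity: for an index `α` of level `N`, `γ ∈ SL(2,ℤ)` and `m ∣ N`,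
`(α_m) * γ = δ * (α · γ)_m`. -/
theorem hnf_proj_mul {N m : ℕ} (hN : N ≠ 0) (hmN : m ∣ N) (α : hnf_I N) (γ : SL(2, ℤ)) :
    ∃ δ : SL(2, ℤ), hnf_mat (hnf_proj m α) * (γ : Matrix (Fin 2) (Fin 2) ℤ) =
      (δ : Matrix (Fin 2) (Fin 2) ℤ) * hnf_mat (hnf_proj m (hnf_act α γ)) := by
  have hm : m ≠ 0 := ne_zero_of_dvd_ne_zero hN hmN
  rw [hnf_proj_act hN hmN]
  exact hnf_act_spec hm (hnf_proj m α) γ

end Fermat.Agent.S28
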