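import Mathlib
import Fermat.Agent.S28.Comb.HNFIndex

/-!
# Transitivity of the right `SL(2,ℤ)`-action on Hermite normal forms (S28, node W1, part 3)

Every index `(a, b, d)` of level `N` is of the form `∞ · γ`, i.e. `diag(N,1) * γ ∈ SL(2,ℤ) * (a b; 0 d)`
for some `γ ∈ SL(2,ℤ)` (`hnf_act_inf_surjective`); hence `γ ↦ ∞ · γ` identifies the index set
`hnf_I N` with the cosets `Γ₀(N) \ SL(2,ℤ)` (`hnf_act_inf_eq_iff`).
-/

set_option autoImplicit false

namespace Fermat.Agent.S28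

open Matrix
open scoped MatrixGroups

/-- If `gcd(a, b, d) = 1` and `d ≠ 0` then `b + k a` is prime to `d` for a suitable `k`. -/
theorem hnf_exists_coprime_shift (a b d : ℕ) (hd : d ≠ 0) (h : Nat.gcd a (Nat.gcd b d) = 1) :
    ∃ k : ℕ, Nat.Coprime (b + k * a) d := by
  classical
  let ps : Finset ℕ := {p ∈ d.primeFactors | ¬p ∣ b}
  refine ⟨ps.prod id, ?_⟩
  apply Nat.coprime_of_dvd
  intro p pp hp hpd
  by_cases hpb : p ∣ b
  · have h1 := Nat.dvd_sub hp hpb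
    rw [add_comm, Nat.add_sub_cancel] at h1
    rcases pp.dvd_mul.mp h1 with h2 | h2
    · have ⟨q, hq, hq'⟩ := (pp.prime.dvd_finsetProd_iff id).mp h2
      rw [Finset.mem_filter, Nat.mem_primeFactors,
        ← (Nat.prime_dvd_prime_iff_eq pp hq.1.1).mp hq'] at hq
      exact hq.2 hpb
    · have : p ∣ 1 := by
        rw [← h]
        exact Nat.dvd_gcd h2 (Nat.dvd_gcd hpb hpd)
      exact pp.one_lt.ne' (Nat.dvd_one.mp this)
  · have pps : p ∈ ps := Finset.mem_filter.mpr ⟨Nat.mem_primeFactors.mpr ⟨pp, hpd, hd⟩, hpb⟩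
    have h1 := Nat.dvd_sub hp ((Finset.dvd_prod_of_mem id pps).mul_right a)
    rw [Nat.add_sub_cancel] at h1
    exact hpb h1

/-- TRANSITIVITY: every index of level `N` is `∞ · γ` for some `γ ∈ SL(2,ℤ)`. -/
theorem hnf_act_inf_surjective {N : ℕ} (hN : N ≠ 0) (α : hnf_I N) :
    ∃ γ : SL(2, ℤ), hnf_act (hnf_inf N) γ = α := by
  obtain ⟨k, hk⟩ := hnf_exists_coprime_shift α.a α.b α.d α.d_pos.ne' α.hgcd
  obtain ⟨u, v, huv⟩ := Nat.isCoprime_iff_coprime.mpr hk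
  -- `u * (b + k a) + v * d = 1`
  have huv' : u * ((α.b : ℤ) + k * α.a) + v * α.d = 1 := by
    have := huv
    push_cast at this
    exact this
  have hNad : (N : ℤ) = (α.a : ℤ) * α.d := by exact_mod_cast α.had.symm
  refine ⟨⟨!![1, -(k : ℤ); u * α.a, u * α.b + v * α.d], ?_⟩, ?_⟩
  · rw [Matrix.det_fin_two_of]
    linear_combination huv'
  · apply hnf_act_eq_of hN
      (γ' := ⟨!![(α.d : ℤ), -((α.b : ℤ) + k * α.a); u, v], by
        rw [Matrix.det_fin_two_of]; linear_combination huv'⟩)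
    rw [hnf_mat_inf]
    apply hnf_ext2
    · simp [Matrix.mul_apply, Fin.sum_univ_two, hNad, mul_comm]
    · simp only [Matrix.mul_apply, Fin.sum_univ_two, hnf_mat_01, hnf_mat_11, Matrix.of_apply,
        Matrix.cons_val_zero, Matrix.cons_val_one, Matrix.cons_val', Matrix.empty_val',
        Matrix.cons_val_fin_one]
      rw [hNad]
      ring
    · simp [Matrix.mul_apply, Fin.sum_univ_two]
    · simp [Matrix.mul_apply, Fin.sum_univ_two]

/-- Two elements of `SL(2,ℤ)` have the same index iff they differ by left multiplication with an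
element `g` whose conjugate `diag(N,1) g diag(N,1)⁻¹` is integral (i.e. `g ∈ Γ⁰(N)`-type coset
condition), expressed without subgroups: `diag(N,1) * γ₁ = ε * (diag(N,1) * γ₂)` for some
`ε ∈ SL(2,ℤ)`. -/
theorem hnf_act_inf_eq_iff {N : ℕ} (hN : N ≠ 0) (γ₁ γ₂ : SL(2, ℤ)) :
    hnf_act (hnf_inf N) γ₁ = hnf_act (hnf_inf N) γ₂ ↔
      ∃ ε : SL(2, ℤ), hnf_mat (hnf_inf N) * (γ₁ : Matrix (Fin 2) (Fin 2) ℤ) =
        (ε : Matrix (Fin 2) (Fin 2) ℤ) * (hnf_mat (hnf_inf N) * (γ₂ : Matrix (Fin 2) (Fin 2) ℤ)) := by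
  obtain ⟨δ₁, h₁⟩ := hnf_act_spec hN (hnf_inf N) γ₁
  obtain ⟨δ₂, h₂⟩ := hnf_act_spec hN (hnf_inf N) γ₂
  constructor
  · intro h
    refine ⟨δ₁ * δ₂⁻¹, ?_⟩
    rw [h₁, h₂, h, Matrix.SpecialLinearGroup.coe_mul, Matrix.mul_assoc, ← Matrix.mul_assoc
      ((δ₂⁻¹ : SL(2, ℤ)) : Matrix (Fin 2) (Fin 2) ℤ), ← Matrix.SpecialLinearGroup.coe_mul,
      inv_mul_cancel, Matrix.SpecialLinearGroup.coe_one, Matrix.one_mul]
  · rintro ⟨ε, hε⟩
    apply hnf_act_eq_of hN (γ' := ε * δ₂)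
    rw [hε, h₂, Matrix.SpecialLinearGroup.coe_mul, Matrix.mul_assoc]

/-- Left multiplication by `g ∈ Γ₀(N)` (i.e. `N ∣ g 1 0`) does not change the index. -/
theorem hnf_act_inf_Gamma0_mul {N : ℕ} (hN : N ≠ 0) (g γ : SL(2, ℤ)) (hg : (N : ℤ) ∣ g 1 0) :
    hnf_act (hnf_inf N) (g * γ) = hnf_act (hnf_inf N) γ := by
  obtain ⟨c, hc⟩ := hg
  have hdet : g 0 0 * g 1 1 - g 0 1 * g 1 0 = 1 := by
    have h := g.2
    rw [Matrix.det_fin_two] at h
    exact h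
  rw [hnf_act_inf_eq_iff hN]
  refine ⟨⟨!![g 0 0, (N : ℤ) * g 0 1; c, g 1 1], ?_⟩, ?_⟩
  · rw [Matrix.det_fin_two_of]
    rw [hc] at hdet
    linear_combination hdet
  · rw [Matrix.SpecialLinearGroup.coe_mul, ← Matrix.mul_assoc, ← Matrix.mul_assoc]
    congr 1
    rw [hnf_mat_inf]
    apply hnf_ext2
    · simp [Matrix.mul_apply, Fin.sum_univ_two, mul_comm]
    · simp [Matrix.mul_apply, Fin.sum_univ_two]
    · simp [Matrix.mul_apply, Fin.sum_univ_two, hc, mul_comm]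
    · simp [Matrix.mul_apply, Fin.sum_univ_two]

/-- The index of `γ` determines the coset `Γ₀(N) γ`. -/
theorem hnf_act_inf_eq_iff_dvd {N : ℕ} (hN : N ≠ 0) (γ₁ γ₂ : SL(2, ℤ)) :
    hnf_act (hnf_inf N) γ₁ = hnf_act (hnf_inf N) γ₂ ↔ (N : ℤ) ∣ (γ₁ * γ₂⁻¹) 1 0 := by
  constructor
  · intro h
    obtain ⟨ε, hε⟩ := (hnf_act_inf_eq_iff hN γ₁ γ₂).mp h
    have h1 : hnf_mat (hnf_inf N) * ((γ₁ * γ₂⁻¹ : SL(2, ℤ)) : Matrix (Fin 2) (Fin 2) ℤ) =
        (ε : Matrix (Fin 2) (Fin 2) ℤ) * hnf_mat (hnf_inf N) := by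
      rw [Matrix.SpecialLinearGroup.coe_mul, ← Matrix.mul_assoc, hε, Matrix.mul_assoc,
        Matrix.mul_assoc, ← Matrix.SpecialLinearGroup.coe_mul, mul_inv_cancel,
        Matrix.SpecialLinearGroup.coe_one, Matrix.mul_one]
    have h2 := congrFun (congrFun h1 1) 0
    rw [hnf_mat_inf] at h2
    simp only [Matrix.mul_apply, Fin.sum_univ_two, Matrix.of_apply, Matrix.cons_val_zero,
      Matrix.cons_val_one, Matrix.cons_val', Matrix.empty_val', Matrix.cons_val_fin_one,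
      zero_mul, zero_add, one_mul, mul_zero, add_zero] at h2
    exact ⟨ε 1 0, by rw [h2]; ring⟩
  · intro h
    have := hnf_act_inf_Gamma0_mul hN (γ₁ * γ₂⁻¹) γ₂ h
    rwa [inv_mul_cancel_right] at this


end Fermat.Agent.S28
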