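import Mathlib

/-!
# The divisor-sum combinatorics of the Igusa irreducibility argument

If `S` is a finite family of indices with "widths" `a α`, such that
`∑_{α ∈ S} gcd (a α) m ^ 2 = m * |S|` for every `m ∣ N` and exactly one index has `N ∣ a α`,
then `|S| * φ(N) = J₂(N)` (Jordan totient).  Consequently two such families have the same
cardinality.
-/

set_option autoImplicit false

namespace Fermat.Agent.S28

open Finset

/-- If `∑_{e ∣ m} h e = 0` for all `m ∣ N`, then `h m = 0` for all `m ∣ N`. -/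
theorem ig_divisor_sum_zero (N : ℕ) (hN : N ≠ 0) (h : ℕ → ℤ)
    (hs : ∀ m, m ∣ N → ∑ e ∈ m.divisors, h e = 0) : ∀ m, m ∣ N → h m = 0 := by
  intro m
  induction m using Nat.strong_induction_on with
  | _ m ih =>
    intro hm
    have hm0 : m ≠ 0 := fun h0 => hN (by subst h0; exact Nat.eq_zero_of_zero_dvd hm)
    have h1 := hs m hm
    rw [← Nat.cons_self_properDivisors hm0, Finset.sum_cons] at h1
    have h2 : ∑ e ∈ m.properDivisors, h e = 0 := by
      apply Finset.sum_eq_zero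
      intro e he
      rw [Nat.mem_properDivisors] at he
      exact ih e he.2 (he.1.trans hm)
    rw [h2, add_zero] at h1
    exact h1

/-- The Jordan totient `J₂` as an integer valued function: `μ * (n ↦ n ^ 2)`. -/
noncomputable def ig_J2 (n : ℕ) : ℤ :=
  (ArithmeticFunction.moebius * (ArithmeticFunction.pow 2 : ArithmeticFunction ℤ)) n

theorem ig_sum_J2 (n : ℕ) (hn : n ≠ 0) : ∑ e ∈ n.divisors, ig_J2 e = (n : ℤ) ^ 2 := by
  have h := ArithmeticFunction.coe_zeta_mul_apply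
    (f := (ArithmeticFunction.moebius * (ArithmeticFunction.pow 2 : ArithmeticFunction ℤ))) (x := n)
  unfold ig_J2
  rw [← h, ← mul_assoc, ArithmeticFunction.coe_zeta_mul_moebius, one_mul]
  simp [ArithmeticFunction.pow_apply, hn]

theorem ig_sum_totient (n : ℕ) : ∑ e ∈ n.divisors, ((Nat.totient e : ℕ) : ℤ) = (n : ℤ) := by
  rw [← Nat.cast_sum, Nat.sum_totient]

/-- `gcd a m ^ 2 = ∑_{e ∣ m, e ∣ a} J₂ e`. -/
theorem ig_gcd_sq (a m : ℕ) (hm : m ≠ 0) :
    ((Nat.gcd a m : ℕ) : ℤ) ^ 2 = ∑ e ∈ m.divisors, if e ∣ a then ig_J2 e else 0 := by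
  have hg : Nat.gcd a m ≠ 0 := by
    intro h
    exact hm (Nat.eq_zero_of_gcd_eq_zero_right h)
  rw [← ig_sum_J2 _ hg, ← Finset.sum_filter]
  apply Finset.sum_congr _ (fun _ _ => rfl)
  ext e
  simp only [Nat.mem_divisors, Finset.mem_filter, Nat.dvd_gcd_iff]
  constructor
  · rintro ⟨⟨h1, h2⟩, _⟩
    exact ⟨⟨h2, hm⟩, h1⟩
  · rintro ⟨⟨h2, _⟩, h1⟩
    exact ⟨⟨h1, h2⟩, hg⟩

/-- The main counting statement. -/
theorem ig_card_mul_totient (N : ℕ) (hN : N ≠ 0) {ι : Type*} (S : Finset ι) (a : ι → ℕ)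
    (hE : ∀ m, m ∣ N → ∑ α ∈ S, ((Nat.gcd (a α) m : ℕ) : ℤ) ^ 2 = (m : ℤ) * S.card)
    (hN1 : (S.filter fun α => N ∣ a α).card = 1) :
    (S.card : ℤ) * (Nat.totient N : ℤ) = ig_J2 N := by
  classical
  set σ : ℕ → ℤ := fun e => ((S.filter fun α => e ∣ a α).card : ℤ) with hσ
  have key : ∀ m, m ∣ N →
      ∑ e ∈ m.divisors, (ig_J2 e * σ e - (S.card : ℤ) * (Nat.totient e : ℤ)) = 0 := by
    intro m hm
    have hm0 : m ≠ 0 := fun h => hN (by subst h; exact Nat.eq_zero_of_zero_dvd hm)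
    rw [Finset.sum_sub_distrib, ← Finset.mul_sum, ig_sum_totient, sub_eq_zero]
    have h1 := hE m hm
    rw [mul_comm] at h1
    rw [← h1]
    calc ∑ e ∈ m.divisors, ig_J2 e * σ e
        = ∑ e ∈ m.divisors, ∑ α ∈ S, (if e ∣ a α then ig_J2 e else 0) := by
          apply Finset.sum_congr rfl
          intro e _
          rw [hσ]
          simp only
          rw [Finset.card_filter, Nat.cast_sum, Finset.mul_sum]
          apply Finset.sum_congr rfl
          intro α _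
          split_ifs <;> simp
      _ = ∑ α ∈ S, ∑ e ∈ m.divisors, (if e ∣ a α then ig_J2 e else 0) := Finset.sum_comm
      _ = ∑ α ∈ S, ((Nat.gcd (a α) m : ℕ) : ℤ) ^ 2 := by
          apply Finset.sum_congr rfl
          intro α _
          rw [ig_gcd_sq _ _ hm0]
  have h0 := ig_divisor_sum_zero N hN _ key N (dvd_refl N)
  have hσN : σ N = 1 := by
    rw [hσ]
    simp only
    rw [hN1]
    simp
  rw [hσN, mul_one, sub_eq_zero] at h0
  exact h0.symm

/-- Two families satisfying the hypotheses have the same cardinality. -/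
theorem ig_card_eq (N : ℕ) (hN : N ≠ 0) {ι κ : Type*} (S : Finset ι) (a : ι → ℕ)
    (T : Finset κ) (b : κ → ℕ)
    (hES : ∀ m, m ∣ N → ∑ α ∈ S, ((Nat.gcd (a α) m : ℕ) : ℤ) ^ 2 = (m : ℤ) * S.card)
    (hS1 : (S.filter fun α => N ∣ a α).card = 1)
    (hET : ∀ m, m ∣ N → ∑ α ∈ T, ((Nat.gcd (b α) m : ℕ) : ℤ) ^ 2 = (m : ℤ) * T.card)
    (hT1 : (T.filter fun α => N ∣ b α).card = 1) : S.card = T.card := by
  have h1 := ig_card_mul_totient N hN S a hES hS1
  have h2 := ig_card_mul_totient N hN T b hET hT1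
  have hφ : (Nat.totient N : ℤ) ≠ 0 := by
    have := Nat.totient_pos.mpr (Nat.pos_of_ne_zero hN)
    exact_mod_cast this.ne'
  have : (S.card : ℤ) = T.card := by
    apply mul_right_cancel₀ hφ
    rw [h1, h2]
  exact_mod_cast this

/-- A subfamily satisfying the same identities is everything. -/
theorem ig_subset_eq (N : ℕ) (hN : N ≠ 0) {ι : Type*} (S T : Finset ι) (hST : S ⊆ T) (a : ι → ℕ)
    (hES : ∀ m, m ∣ N → ∑ α ∈ S, ((Nat.gcd (a α) m : ℕ) : ℤ) ^ 2 = (m : ℤ) * S.card)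
    (hS1 : (S.filter fun α => N ∣ a α).card = 1)
    (hET : ∀ m, m ∣ N → ∑ α ∈ T, ((Nat.gcd (a α) m : ℕ) : ℤ) ^ 2 = (m : ℤ) * T.card)
    (hT1 : (T.filter fun α => N ∣ a α).card = 1) : S = T :=
  Finset.eq_of_subset_of_card_le hST (ig_card_eq N hN S a T a hES hS1 hET hT1).ge

end Fermat.Agent.S28
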