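import Mathlib
import Fermat.Agent.S28.Comb.HNFTrans
import Fermat.Agent.S24.Comb.Cosets

/-!
# Hermite indices versus cosets of `Γ₀(N)` (S28, node W1, part 4)

`Fermat.Agent.S24.Comb.Q N = SL(2,ℤ) ⧸ Γ₀(N)` (left cosets `g Γ₀(N)`) is in bijection with the
index set `hnf_I N` via `g Γ₀(N) ↦ ∞ · g⁻¹`; in particular both have the same cardinality.
-/

set_option autoImplicit false

namespace Fermat.Agent.S28

open Matrix CongruenceSubgroup
open scoped MatrixGroups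

theorem hnf_mem_Gamma0_iff {N : ℕ} (g : SL(2, ℤ)) : g ∈ Gamma0 N ↔ (N : ℤ) ∣ g 1 0 := by
  rw [Gamma0_mem, ZMod.intCast_zmod_eq_zero_iff_dvd]

/-- The index of the left coset `g Γ₀(N)`: `∞ · g⁻¹`. -/
noncomputable def hnf_ofCoset {N : ℕ} (hN : N ≠ 0) : Fermat.Agent.S24.Comb.Q N → hnf_I N :=
  Quotient.lift (fun g : SL(2, ℤ) => hnf_act (hnf_inf N) g⁻¹) (by
    intro g g' h
    have h' : g⁻¹ * g' ∈ Gamma0 N := QuotientGroup.leftRel_apply.mp h
    show hnf_act (hnf_inf N) g⁻¹ = hnf_act (hnf_inf N) g'⁻¹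
    rw [hnf_act_inf_eq_iff_dvd hN, inv_inv]
    exact (hnf_mem_Gamma0_iff _).mp h')

theorem hnf_ofCoset_mk {N : ℕ} (hN : N ≠ 0) (g : SL(2, ℤ)) :
    hnf_ofCoset hN ((g : SL(2, ℤ)) : Fermat.Agent.S24.Comb.Q N) = hnf_act (hnf_inf N) g⁻¹ := rfl

theorem hnf_ofCoset_injective {N : ℕ} (hN : N ≠ 0) : Function.Injective (hnf_ofCoset hN) := by
  intro q q' h
  induction q using QuotientGroup.induction_on with
  | H g =>
    induction q' using QuotientGroup.induction_on with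
    | H g' =>
      rw [hnf_ofCoset_mk, hnf_ofCoset_mk, hnf_act_inf_eq_iff_dvd hN, inv_inv] at h
      exact QuotientGroup.eq.mpr ((hnf_mem_Gamma0_iff _).mpr h)

theorem hnf_ofCoset_surjective {N : ℕ} (hN : N ≠ 0) : Function.Surjective (hnf_ofCoset hN) := by
  intro α
  obtain ⟨γ, hγ⟩ := hnf_act_inf_surjective hN α
  refine ⟨((γ⁻¹ : SL(2, ℤ)) : Fermat.Agent.S24.Comb.Q N), ?_⟩
  rw [hnf_ofCoset_mk, inv_inv, hγ]

/-- The bijection `SL(2,ℤ) ⧸ Γ₀(N) ≃ hnf_I N`, `g Γ₀(N) ↦ ∞ · g⁻¹`. -/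
noncomputable def hnf_cosetEquiv {N : ℕ} (hN : N ≠ 0) : Fermat.Agent.S24.Comb.Q N ≃ hnf_I N :=
  Equiv.ofBijective (hnf_ofCoset hN) ⟨hnf_ofCoset_injective hN, hnf_ofCoset_surjective hN⟩

@[simp] theorem hnf_cosetEquiv_mk {N : ℕ} (hN : N ≠ 0) (g : SL(2, ℤ)) :
    hnf_cosetEquiv hN ((g : SL(2, ℤ)) : Fermat.Agent.S24.Comb.Q N) =
      hnf_act (hnf_inf N) g⁻¹ := rfl

/-- The left translation action on cosets corresponds to the right action by the inverse. -/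
theorem hnf_cosetEquiv_smul {N : ℕ} (hN : N ≠ 0) (δ : SL(2, ℤ))
    (q : Fermat.Agent.S24.Comb.Q N) :
    hnf_cosetEquiv hN (δ • q) = hnf_act (hnf_cosetEquiv hN q) δ⁻¹ := by
  induction q using QuotientGroup.induction_on with
  | H g =>
    rw [Fermat.Agent.S24.Comb.smul_coset, hnf_cosetEquiv_mk, hnf_cosetEquiv_mk, _root_.mul_inv_rev,
      hnf_act_mul hN]

theorem hnf_card_eq {N : ℕ} [NeZero N] :
    Fintype.card (hnf_I N) = Nat.card (Fermat.Agent.S24.Comb.Q N) := by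
  rw [← Nat.card_eq_fintype_card]
  exact (Nat.card_congr (hnf_cosetEquiv (NeZero.ne N))).symm

theorem hnf_natCard_eq {N : ℕ} (hN : N ≠ 0) :
    Nat.card (hnf_I N) = Nat.card (Fermat.Agent.S24.Comb.Q N) :=
  (Nat.card_congr (hnf_cosetEquiv hN)).symm

end Fermat.Agent.S28
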